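import Fermat.Agent.ORD.P7.LevelM

/-!
# ORD / P7 / HCore : the hypothesis `hcore` of `P0.ordAt_of_hsys` from `CoreStatement`.
-/

set_option autoImplicit false

open ModularCurve AlgebraicCurve CongruenceSubgroup
open Fermat.Agent.GAL Fermat.Agent.GR Fermat.Agent.GR.CB Fermat.Agent.TOR
open scoped MatrixGroups

noncomputable section

namespace Fermat.Agent.ORD.P7

/-- equal classes: the quotient lies in the function field. -/
theorem hCore_div_mem {M : ℕ} {a b : UU} (h : cls M a = cls M b) :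
    (a : LaurentSeries Qb) / (b : LaurentSeries Qb) ∈ FL Qb M := by
  have h1 : cls M (a * b⁻¹) = 0 := by rw [cls_mul, cls_inv, h, add_neg_cancel]
  have h2 : ((a * b⁻¹ : UU) : LaurentSeries Qb) ∈ FL Qb M := cls_eq_zero_iff.1 h1
  rwa [Units.val_mul, Units.val_inv_eq_inv_val, ← div_eq_mul_inv] at h2

/-- **hcore** from `CoreStatement`.  `y = cls u` with `IsKum (p ^ m) u`, `u ^ (p ^ m) ≡ 1`; `p • y = 0` gives `u ^ p ∈ FL` (`cls_pow`, `cls_eq_zero_iff`); `k1b`;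
`coe_US_pow_of_cls` + `coe_nmU_iterate` translate the periodicity, `gA_cls` the invariance (`cls a = cls b ↔ a * b⁻¹ ∈ FLU`). -/
theorem hcoreS (hC : CoreStatement) {M₁ p : ℕ} [NeZero p] (hM₁0 : M₁ ≠ 0) (hM₁ : AdmLevel M₁)
    (hp : p.Prime) (hp2 : p ≠ 2) (hpM₁ : ¬ p ∣ M₁) (𝒜 : AnFamily (M₁ * p) p)
    (hAU : AnU 𝒜 p hp (Dvd.intro_left M₁ rfl))
    (A : ValuationSubring Qb) (hA : A.LiesOverPrime p) (s0 : GAL.GQ)
    (hs0 : s0 ∈ A.inertiaSubgroupIn ℚ) (a : ℕ) (hs0a : ∀ ζ : Qb, ζ ^ p = 1 → s0 ζ = ζ ^ a)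
    (ha : ¬ a ≡ 1 [MOD p]) (y : SS 𝒜) (hy : y ∈ K1S 𝒜 A) (hpy : p • y = 0)
    (hper : ∃ n : ℕ, 0 < n ∧ (US hAU ^ n) y = y) (hfix : actS 𝒜 s0 y = y) : y = 0 := by
  obtain ⟨u, m, hu, hkum, hred⟩ := hy
  have hup : (u : LaurentSeries Qb) ^ p ∈ FL Qb (M₁ * p) := by
    have h1 : cls (M₁ * p) (u ^ p) = 0 := by
      rw [cls_pow, hu, ← Submodule.coe_smul_of_tower, hpy]
      rfl
    have h2 : ((u ^ p : UU) : LaurentSeries Qb) ∈ FL Qb (M₁ * p) := cls_eq_zero_iff.1 h1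
    rwa [Units.val_pow_eq_pow_val] at h2
  obtain ⟨hk, hr⟩ := k1b (M₁ * p) p m hp A hA (u : LaurentSeries Qb) hkum hred hup
  have hper' : ∃ n : ℕ, 0 < n ∧
      ((NmL Qb p)^[n] (u : LaurentSeries Qb)) / (u : LaurentSeries Qb) ∈ FL Qb (M₁ * p) := by
    obtain ⟨n, hn, hny⟩ := hper
    refine ⟨n, hn, ?_⟩
    have h1 := coe_US_pow_of_cls hAU n y u hu
    rw [hny, ← hu] at h1
    have h2 := hCore_div_mem h1.symm
    rwa [coe_nmU_iterate] at h2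
  have hfix' : galS s0 (u : LaurentSeries Qb) / (u : LaurentSeries Qb) ∈ FL Qb (M₁ * p) := by
    have h1 : gA (M₁ * p) s0 (y : AA (M₁ * p)) = (y : AA (M₁ * p)) := by
      rw [← coe_actS, hfix]
    rw [← hu, gA_cls] at h1
    have h2 := hCore_div_mem h1
    rwa [coe_galU] at h2
  have hfin := hC M₁ p hM₁0 hM₁ hp hp2 hpM₁ A hA s0 hs0 a hs0a ha (u : LaurentSeries Qb) hk hr
    hper' hfix'
  apply Subtype.ext
  rw [← hu]
  exact cls_eq_zero_iff.2 hfin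

end Fermat.Agent.ORD.P7
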