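import Fermat.Agent.ORD.P0.Defs

/-!
# ORD / P7 / FaithGlue : `Faith X ψ` from the lattice statement (abstract).

`Λ = Lat M`, `κ k : Λ → W` with kernel `p ^ k Λ`, equivariant for the Hecke ring and for `U`.

PROOF.  Given `n`, take `k` from `hFS`.  `Ξ' := range (κ k)` is finite (`Λ / p ^ k Λ` is finite: finitely generated and killed by `p ^ k`;
e.g. `Module.finite_of_fg_torsion`, cf. `ORD/P6/OrdSplit.lean : OrdSplit_finite_quot`), stable under `op D`, `U`.  `Y := op s * U` (`op s`, `U` commute: `X.U_op`).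
The chain `Y ^ j Ξ'` of finite groups is decreasing, so there is `j` with `Y ^ (j + 1) Ξ' = Y ^ j Ξ'`.  `Ξ := Y ^ j Ξ' = κ k ((opΛ s * UΛ) ^ j Λ)`.
`Y` is surjective on the finite set `Ξ`, hence injective; so `U` and `op s` are injective on `Ξ` (`Y = op s * U = U * op s`).
`nil`: for `D ∈ mOf ψ` take `n₀` from `hs`, `E := D ^ n₀ * s`: `op E (κ k x) = κ k (p • y) = p • κ k y`, so `op (E ^ k) Ξ' ⊆ p ^ k Ξ' = 0`.
For `x ∈ Ξ`: `0 = op (E ^ k) x = op (s ^ k) (op (D ^ (n₀ k)) x)` and `op s` is injective on the `op`-stable `Ξ`: `op (D ^ (n₀ k)) x = 0`.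
Faithfulness: if `op D` kills `Ξ` then `κ k (opΛ D ((opΛ s * UΛ) ^ j x)) = 0`, so it is in `p ^ k Λ` (`hκ`), so `ψ D ∈ 𝔪 ^ n` (`hFS`).
-/

set_option autoImplicit false

namespace Fermat.Agent.ORD.P7

open Fermat.Agent.ORD.P0 IsLocalRing

/-- an antitone sequence of subsets of a finite set stabilises somewhere. -/
theorem FaithGlue_stab {α : Type*} (f : ℕ → Set α) (hfin : (f 0).Finite)
    (hanti : ∀ j, f (j + 1) ⊆ f j) : ∃ j, f (j + 1) = f j := by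
  have hsub : ∀ j, f j ⊆ f 0 := by
    intro j
    induction j with
    | zero => exact subset_rfl
    | succ j ih => exact (hanti j).trans ih
  have hne : (Set.range fun j => (f j).ncard).Nonempty := ⟨_, 0, rfl⟩
  obtain ⟨j, hj⟩ := Nat.sInf_mem hne
  refine ⟨j, Set.eq_of_subset_of_ncard_le (hanti j) ?_ (hfin.subset (hsub j))⟩
  have hj' : (f j).ncard = sInf (Set.range fun j => (f j).ncard) := hj
  rw [hj']
  exact Nat.sInf_le ⟨j + 1, rfl⟩

theorem faith_of_lattice {bad : Finset ℕ} {HH : Type} [CommRing HH] {p : ℕ} (hp : p.Prime)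
    (X : HSys bad HH) {T : Type} [CommRing T] [IsLocalRing T] (ψ : HH →+* T)
    {Λ : Type} [AddCommGroup Λ] [Module.Finite ℤ Λ]
    (κ : ℕ → Λ →ₗ[ℤ] X.W) (hκ : ∀ (k : ℕ) (x : Λ), κ k x = 0 ↔ ∃ y : Λ, x = (p ^ k) • y)
    (opΛ : HH →+* Module.End ℤ Λ) (UΛ : Module.End ℤ Λ)
    (hκop : ∀ (k : ℕ) (D : HH) (x : Λ), κ k (opΛ D x) = X.op D (κ k x))
    (hκU : ∀ (k : ℕ) (x : Λ), κ k (UΛ x) = X.U (κ k x))
    (s : HH)
    (hs : ∀ D ∈ mOf ψ, ∃ n : ℕ, ∀ x : Λ, ∃ y : Λ, opΛ (D ^ n * s) x = p • y)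
    (hFS : ∀ n : ℕ, ∃ k : ℕ, ∀ (D : HH) (j : ℕ),
      (∀ x : Λ, ∃ y : Λ, opΛ D (((opΛ s * UΛ) ^ j) x) = (p ^ k) • y) → ψ D ∈ maximalIdeal T ^ n) :
    Faith X ψ := by
  intro n
  obtain ⟨k, hk⟩ := hFS n
  obtain ⟨Y, hY⟩ : ∃ Y : Module.End ℤ X.W, Y = X.op s * X.U := ⟨_, rfl⟩
  obtain ⟨YΛ, hYΛ⟩ : ∃ YΛ : Module.End ℤ Λ, YΛ = opΛ s * UΛ := ⟨_, rfl⟩
  rw [← hYΛ] at hk
  have hκY : ∀ x, κ k (YΛ x) = Y (κ k x) := by
    intro x
    rw [hYΛ, hY, Module.End.mul_apply, Module.End.mul_apply, hκop, hκU]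
  have hκYj : ∀ (j : ℕ) (x : Λ), κ k ((YΛ ^ j) x) = (Y ^ j) (κ k x) := by
    intro j
    induction j with
    | zero => intro x; simp
    | succ j ih =>
      intro x
      rw [pow_succ, pow_succ, Module.End.mul_apply, Module.End.mul_apply, ih, hκY]
  have hYop : ∀ D, Commute Y (X.op D) := by
    intro D
    rw [hY]
    exact ((Commute.all s D).map X.op).mul_left (X.U_op D)
  have hYU : Commute Y X.U := by
    rw [hY]
    exact (X.U_op s).symm.mul_left (Commute.refl _)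
  -- the chain
  let Ξs : ℕ → Submodule ℤ X.W := fun j => LinearMap.range ((κ k) ∘ₗ (YΛ ^ j))
  have hmem : ∀ j z, z ∈ Ξs j ↔ ∃ x : Λ, κ k ((YΛ ^ j) x) = z := by
    intro j z
    exact LinearMap.mem_range
  have hfin0 : ((Ξs 0 : Submodule ℤ X.W) : Set X.W).Finite := by
    have h1 : Module.Finite ℤ (Ξs 0) := Module.Finite.range _
    have h2 : Module.IsTorsion ℤ (Ξs 0) := by
      rintro ⟨z, hz⟩
      obtain ⟨x, rfl⟩ := (hmem 0 z).1 hz
      refine ⟨⟨(p : ℤ) ^ k, mem_nonZeroDivisors_of_ne_zero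
        (pow_ne_zero _ (by exact_mod_cast hp.ne_zero))⟩, ?_⟩
      apply Subtype.ext
      show ((p : ℤ) ^ k) • κ k ((YΛ ^ 0) x) = 0
      rw [← map_smul, hκ]
      refine ⟨(YΛ ^ 0) x, ?_⟩
      rw [← Nat.cast_pow, natCast_zsmul]
    have h3 : Finite (Ξs 0) := Module.finite_of_fg_torsion _ h2
    exact Set.toFinite _
  have hanti : ∀ j, ((Ξs (j + 1) : Submodule ℤ X.W) : Set X.W) ⊆ Ξs j := by
    intro j z hz
    obtain ⟨x, rfl⟩ := (hmem (j + 1) z).1 hz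
    refine (hmem j _).2 ⟨YΛ x, ?_⟩
    rw [pow_succ, Module.End.mul_apply]
  obtain ⟨j, hj⟩ := FaithGlue_stab (fun j => ((Ξs j : Submodule ℤ X.W) : Set X.W)) hfin0 hanti
  have hsub0 : ∀ i, ((Ξs i : Submodule ℤ X.W) : Set X.W) ⊆ Ξs 0 := by
    intro i
    induction i with
    | zero => exact subset_rfl
    | succ i ih => exact (hanti i).trans ih
  have hfinj : ((Ξs j : Submodule ℤ X.W) : Set X.W).Finite := hfin0.subset (hsub0 j)
  -- stability
  have hYmem : ∀ z ∈ Ξs j, Y z ∈ Ξs j := by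
    intro z hz
    obtain ⟨x, rfl⟩ := (hmem j z).1 hz
    refine (hmem j _).2 ⟨YΛ x, ?_⟩
    rw [hκYj, hκYj, hκY, ← Module.End.mul_apply, ← Module.End.mul_apply, ← pow_succ, ← pow_succ']
  have hopmem : ∀ (D : HH), ∀ z ∈ Ξs j, X.op D z ∈ Ξs j := by
    intro D z hz
    obtain ⟨x, rfl⟩ := (hmem j z).1 hz
    refine (hmem j _).2 ⟨opΛ D x, ?_⟩
    rw [hκYj, hκYj, hκop, ← Module.End.mul_apply, ← Module.End.mul_apply,
      ((hYop D).pow_left j).eq]
  have hUmem : ∀ z ∈ Ξs j, X.U z ∈ Ξs j := by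
    intro z hz
    obtain ⟨x, rfl⟩ := (hmem j z).1 hz
    refine (hmem j _).2 ⟨UΛ x, ?_⟩
    rw [hκYj, hκYj, hκU, ← Module.End.mul_apply, ← Module.End.mul_apply, (hYU.pow_left j).eq]
  have hYsurj : ∀ z ∈ Ξs j, ∃ z' ∈ Ξs j, Y z' = z := by
    intro z hz
    have hz' : z ∈ ((Ξs (j + 1) : Submodule ℤ X.W) : Set X.W) := by
      have : ((Ξs (j + 1) : Submodule ℤ X.W) : Set X.W) = Ξs j := hj
      rw [this]; exact hz
    obtain ⟨x, rfl⟩ := (hmem (j + 1) z).1 hz'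
    refine ⟨κ k ((YΛ ^ j) x), (hmem j _).2 ⟨x, rfl⟩, ?_⟩
    rw [← hκY, ← Module.End.mul_apply, ← pow_succ']
  have hYinj : ∀ z ∈ Ξs j, Y z = 0 → z = 0 := by
    have : Finite (Ξs j) := hfinj
    let f : Ξs j → Ξs j := fun z => ⟨Y z, hYmem z z.2⟩
    have hfs : Function.Surjective f := by
      rintro ⟨z, hz⟩
      obtain ⟨z', hz', h⟩ := hYsurj z hz
      exact ⟨⟨z', hz'⟩, Subtype.ext h⟩
    have hfi := Finite.injective_iff_surjective.2 hfs
    intro z hz h0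
    have h1 : f ⟨z, hz⟩ = f 0 := by
      apply Subtype.ext
      show Y z = Y 0
      rw [h0, map_zero]
    exact congrArg Subtype.val (hfi h1)
  have hsinj : ∀ z ∈ Ξs j, X.op s z = 0 → z = 0 := by
    intro z hz h0
    apply hYinj z hz
    rw [hY, ← (X.U_op s).eq, Module.End.mul_apply, h0, map_zero]
  have hsinjk : ∀ (i : ℕ), ∀ z ∈ Ξs j, X.op (s ^ i) z = 0 → z = 0 := by
    intro i
    induction i with
    | zero => intro z _ h0; simpa using h0
    | succ i ih =>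
      intro z hz h0
      rw [pow_succ, map_mul, Module.End.mul_apply] at h0
      exact hsinj z hz (ih _ (hopmem s z hz) h0)
  refine ⟨(Ξs j).toAddSubgroup, ⟨hfinj, hopmem, hUmem, ?_, ?_⟩, ?_⟩
  · intro z hz h0
    apply hYinj z hz
    rw [hY, Module.End.mul_apply, h0, map_zero]
  · intro D hD z hz
    obtain ⟨n₀, hn₀⟩ := hs D hD
    have hE : ∀ (i : ℕ) (x : Λ), ∃ y : Λ, opΛ ((D ^ n₀ * s) ^ i) x = (p ^ i) • y := by
      intro i
      induction i with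
      | zero => intro x; exact ⟨x, by simp⟩
      | succ i ih =>
        intro x
        obtain ⟨y, hy⟩ := hn₀ x
        obtain ⟨y', hy'⟩ := ih y
        refine ⟨y', ?_⟩
        rw [pow_succ, map_mul, Module.End.mul_apply, hy, map_nsmul, hy', pow_succ, mul_comm,
          mul_smul]
    refine ⟨n₀ * k, ?_⟩
    apply hsinjk k _ (hopmem _ z hz)
    obtain ⟨x, rfl⟩ := (hmem j z).1 hz
    obtain ⟨y, hy⟩ := hE k ((YΛ ^ j) x)
    rw [← Module.End.mul_apply, ← map_mul, ← hκop, mul_comm, pow_mul, ← mul_pow, hy, hκ]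
    exact ⟨y, rfl⟩
  · intro D hD
    apply hk D j
    intro x
    rw [← hκ, hκop]
    exact hD _ ((hmem j _).2 ⟨x, rfl⟩)

end Fermat.Agent.ORD.P7
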