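import Fermat.Agent.ORD.P7.LevelM

/-!
# ORD / P7 / HWf : the hypothesis `hwf` of `P7.no_kernel` from `WFStatement`.
-/

set_option autoImplicit false

open ModularCurve AlgebraicCurve CongruenceSubgroup
open Fermat.Agent.GAL Fermat.Agent.GR Fermat.Agent.GR.CB Fermat.Agent.TOR
open scoped MatrixGroups

noncomputable section

namespace Fermat.Agent.ORD.P7

/-- orders: `p ^ m ∣ ord_P (u ^ (p ^ m)) = p ^ (m - 1) * ord_P (u ^ p)`  (`m = 0`: `u ∈ FL`, `ord_P (u ^ p) = p * ord_P u`). -/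
theorem isKum_p_of_pow_mem {M p m : ℕ} (hp : p.Prime) {u : LaurentSeries Qb}
    (hu : IsKum Qb M (p ^ m) u) (hup : u ^ p ∈ FL Qb M) : IsKum Qb M p u := by
  obtain ⟨hu0, hf, hord⟩ := hu
  rcases Nat.eq_zero_or_pos m with rfl | hm
  · have hfu : u ∈ FL Qb M := by simpa using hf
    refine ⟨hu0, hup, fun P => ?_⟩
    have e : (⟨u ^ p, hup⟩ : FL Qb M) = (⟨u, hfu⟩ : FL Qb M) ^ (p : ℤ) := by
      rw [zpow_natCast]
      exact Subtype.ext rfl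
    rw [e, P.ord_zpow]
    exact dvd_mul_right _ _
  · obtain ⟨k, rfl⟩ : ∃ k, m = k + 1 := ⟨m - 1, by omega⟩
    have hpow : u ^ p ^ (k + 1) = (u ^ p) ^ (p ^ k) := by rw [pow_succ', pow_mul]
    have hN : p ^ k ≠ 0 := pow_ne_zero _ hp.ne_zero
    refine ⟨hu0, hup, fun P => ?_⟩
    have e : (⟨u ^ p ^ (k + 1), hf⟩ : FL Qb M) = (⟨u ^ p, hup⟩ : FL Qb M) ^ ((p ^ k : ℕ) : ℤ) := by
      rw [zpow_natCast]
      exact Subtype.ext hpow
    have h1 := hord P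
    rw [e, P.ord_zpow, pow_succ, Nat.cast_mul] at h1
    exact (mul_dvd_mul_iff_left (by exact_mod_cast hN)).1 h1

/-- **hwf** from `WFStatement` (level `M₁` prime to `p`).  `y = cls u`, `u ∈ VV 𝒜`, `IsKum (p ^ m) u`; `p • y = 0` gives `u ^ p ∈ FL`, hence `IsKum p u`
(orders: `p ^ m ∣ ord (u ^ (p ^ m)) = p ^ (m - 1) ord (u ^ p)`, as in `k1b`); `TS 𝒜 p y = 0` gives `heckeS Qb p u ∈ FL` (`coe_TS`, `tA_cls'`). -/
theorem hwfS (hW : WFStatement) {M₁ p : ℕ} [NeZero p] (hM₁0 : M₁ ≠ 0) (hM₁ : AdmLevel M₁)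
    (hp : p.Prime) (hp2 : p ≠ 2) (hpM₁ : ¬ p ∣ M₁) (𝒜 : AnFamily M₁ p)
    (A : ValuationSubring Qb) (hA : A.LiesOverPrime p) (y : SS 𝒜) (hpy : p • y = 0)
    (hT : TS 𝒜 p y = 0)
    (hfix : ∀ τ ∈ A.inertiaSubgroupIn ℚ, (∀ ζ : Qb, ζ ^ p = 1 → τ ζ = ζ) → actS 𝒜 τ y = y) :
    y = 0 := by
  obtain ⟨u, huV, hu⟩ := exists_cls_eq 𝒜 y
  obtain ⟨m, hm⟩ := exists_isKum_of_mem_VV 𝒜 huV
  -- `u ^ p ∈ FL`
  have hup : (u : LaurentSeries Qb) ^ p ∈ FL Qb M₁ := by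
    have h1 : cls M₁ (u ^ p) = 0 := by
      rw [cls_pow, hu, ← Submodule.coe_smul_of_tower, hpy, Submodule.coe_zero]
    have h2 := cls_eq_zero_iff.mp h1
    rw [mem_FLU, Units.val_pow_eq_pow_val] at h2
    exact h2
  have hKum : IsKum Qb M₁ p (u : LaurentSeries Qb) := isKum_p_of_pow_mem hp hm hup
  -- `T_p`
  have hHecke : heckeS Qb p (u : LaurentSeries Qb) ∈ FL Qb M₁ := by
    have h1 : cls M₁ (heckeU p u) = 0 := by
      rw [← tA_cls' 𝒜 p hp hpM₁ u, hu, ← coe_TS 𝒜 p hp hpM₁ y, hT, Submodule.coe_zero]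
    exact cls_eq_zero_iff.mp h1
  -- Galois
  have hgal : ∀ τ ∈ A.inertiaSubgroupIn ℚ, (∀ ζ : Qb, ζ ^ p = 1 → τ ζ = ζ) →
      galS τ (u : LaurentSeries Qb) / (u : LaurentSeries Qb) ∈ FL Qb M₁ := by
    intro τ hτ hζ
    have h1 : cls M₁ (galU τ u * u⁻¹) = 0 := by
      rw [cls_mul, cls_inv, ← gA_cls, hu, ← coe_actS, hfix τ hτ hζ, add_neg_cancel]
    have h2 := cls_eq_zero_iff.mp h1
    rw [mem_FLU, Units.val_mul, coe_galU, Units.val_inv_eq_inv_val, ← div_eq_mul_inv] at h2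
    exact h2
  have hfin := hW M₁ p hM₁0 hM₁ hp hp2 hpM₁ A hA (u : LaurentSeries Qb) hKum hHecke hgal
  apply Subtype.ext
  rw [← hu, Submodule.coe_zero]
  exact cls_eq_zero_iff.mpr hfin

end Fermat.Agent.ORD.P7
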