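import Fermat.Agent.ORD.P0.Sat

/-!
# ORD / P7 / NoKerA : the Galois--Hecke module generated by an element killed by `𝔪` is a good piece (for `U = 1`).

PROOF.  `S := {op D (act σ y)}`.  `act σ y` runs through a finite set (`P0.finite_orbit`); each `z = act σ y` is killed by `𝔪 = mOf ψ` (`op_act`), so `op D z`
only depends on the image of `D` in `ResidueField T` (finite): `D ↦ residue (ψ D)` has kernel `𝔪`.  So `S` is finite; `(p : HH) ∈ 𝔪` (`hpT`, `map_natCast`), so `p • z = 0` on `S`;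
`Ξ := AddSubgroup.closure S` is finite (`P0.sat_finite_closure`).  Everything else by `AddSubgroup.closure_induction`.
-/

set_option autoImplicit false

namespace Fermat.Agent.ORD.P7

open Fermat.Agent.GR.Adic (GQ FixesLevel)
open Fermat.Agent.ORD.P0 IsLocalRing

/-- the cyclic Hecke module generated by an element of the socle is a `Good0` piece. -/
theorem NoKerA_good0 {bad : Finset ℕ} {HH : Type} [CommRing HH] (X : HSys bad HH) (hXU : X.U = 1)
    {T : Type} [CommRing T] [IsLocalRing T]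
    [Finite (ResidueField T)] (ψ : HH →+* T) (z : X.W) (hmz : ∀ D ∈ mOf ψ, X.op D z = 0) :
    ∃ Ξ₀ : AddSubgroup X.W, Good0 X (mOf ψ) Ξ₀ ∧ z ∈ Ξ₀ := by
  classical
  let g : HH →+ X.W :=
    { toFun := fun D => X.op D z
      map_zero' := by rw [map_zero, LinearMap.zero_apply]
      map_add' := fun D D' => by rw [map_add, LinearMap.add_apply] }
  have hg : ∀ D, g D = X.op D z := fun _ => rfl
  refine ⟨g.range, ⟨?_, ?_, ?_, ?_, ?_⟩, ⟨1, by rw [hg, map_one, Module.End.one_apply]⟩⟩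
  · refine (Set.finite_range (fun c : ResidueField T =>
      if h : ∃ D, residue T (ψ D) = c then g h.choose else 0)).subset ?_
    rintro _ ⟨D, rfl⟩
    refine ⟨residue T (ψ D), ?_⟩
    have h : ∃ D', residue T (ψ D') = residue T (ψ D) := ⟨D, rfl⟩
    simp only [dif_pos h]
    have h1 := h.choose_spec
    have h2 : h.choose - D ∈ mOf ψ := by
      rw [mem_mOf, map_sub, ← residue_eq_zero_iff, map_sub, h1, sub_self]
    have h3 := hmz _ h2
    rw [map_sub, LinearMap.sub_apply, sub_eq_zero] at h3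
    exact h3
  · rintro D _ ⟨D', rfl⟩
    exact ⟨D * D', by rw [hg, hg, map_mul, Module.End.mul_apply]⟩
  · rintro x hx
    rw [hXU, Module.End.one_apply]; exact hx
  · rintro x - h
    rwa [hXU, Module.End.one_apply] at h
  · rintro D hD _ ⟨D', rfl⟩
    refine ⟨1, ?_⟩
    rw [pow_one, hg, ← Module.End.mul_apply, ← map_mul, mul_comm, map_mul, Module.End.mul_apply,
      hmz D hD, map_zero]

theorem exists_good_socle {bad : Finset ℕ} {HH : Type} [CommRing HH] {p : ℕ} (hp : p.Prime)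
    (X : HSys bad HH) (hU : X.U = 1) {T : Type} [CommRing T] [IsLocalRing T]
    [Finite (ResidueField T)] (hpT : (p : T) ∈ maximalIdeal T) (ψ : HH →+* T)
    (Tp : Module.End ℤ X.W) (hTact : ∀ σ : GQ, Commute Tp (X.act σ))
    (hTop : ∀ D : HH, Commute Tp (X.op D))
    (y : X.W) (hy : ∀ D ∈ mOf ψ, X.op D y = 0) (hTy : Tp y = 0) :
    ∃ Ξ : AddSubgroup X.W, Good X (mOf ψ) Ξ ∧ y ∈ Ξ ∧
      ∀ x ∈ Ξ, (∀ D ∈ mOf ψ, X.op D x = 0) ∧ Tp x = 0 ∧ p • x = 0 := by
  classical
  obtain ⟨Ξ₀, hΞ₀, hyΞ₀⟩ := NoKerA_good0 X hU ψ y hy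
  obtain ⟨Ξ, hΞ, hle⟩ := exists_good X (mOf ψ) Ξ₀ hΞ₀
  have hpm : (p : HH) ∈ mOf ψ := by rw [mem_mOf, map_natCast]; exact hpT
  have hpy : p • y = 0 := by
    have := hy _ hpm
    rwa [map_natCast, Module.End.natCast_apply] at this
  let K : AddSubgroup X.W :=
    { carrier := {x | x ∈ Ξ ∧ (∀ D ∈ mOf ψ, X.op D x = 0) ∧ Tp x = 0 ∧ p • x = 0}
      zero_mem' := ⟨Ξ.zero_mem, fun D _ => map_zero _, map_zero _, smul_zero _⟩
      add_mem' := by
        rintro x x' ⟨h1, h3, h4, h2⟩ ⟨h1', h3', h4', h2'⟩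
        exact ⟨Ξ.add_mem h1 h1', fun D hD => by rw [map_add, h3 D hD, h3' D hD, add_zero],
          by rw [map_add, h4, h4', add_zero], by rw [smul_add, h2, h2', add_zero]⟩
      neg_mem' := by
        rintro x ⟨h1, h3, h4, h2⟩
        exact ⟨Ξ.neg_mem h1, fun D hD => by rw [map_neg, h3 D hD, neg_zero],
          by rw [map_neg, h4, neg_zero], by rw [smul_neg, h2, neg_zero]⟩ }
  refine ⟨K, ⟨⟨?_, ?_, ?_, ?_, ?_⟩, ?_⟩, ⟨hle hyΞ₀, hy, hTy, hpy⟩, fun x hx => hx.2⟩
  · exact hΞ.fin.subset fun x hx => hx.1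
  · rintro D x ⟨h1, h3, h4, h2⟩
    refine ⟨hΞ.op_mem D x h1, fun D' hD' => ?_, ?_, by rw [← map_nsmul, h2, map_zero]⟩
    · rw [← Module.End.mul_apply, ← map_mul, mul_comm, map_mul, Module.End.mul_apply, h3 D' hD',
        map_zero]
    · rw [← Module.End.mul_apply, (hTop D).eq, Module.End.mul_apply, h4, map_zero]
  · rintro x hx
    rw [hU, Module.End.one_apply]; exact hx
  · rintro x - h
    rwa [hU, Module.End.one_apply] at h
  · rintro D hD x ⟨-, h3, -, -⟩
    exact ⟨1, by rw [pow_one]; exact h3 D hD⟩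
  · rintro σ x ⟨h1, h3, h4, h2⟩
    refine ⟨hΞ.act_mem σ x h1, fun D hD => ?_, ?_, by rw [← map_nsmul, h2, map_zero]⟩
    · rw [← Module.End.mul_apply, (X.op_act D σ).eq, Module.End.mul_apply, h3 D hD, map_zero]
    · rw [← Module.End.mul_apply, (hTact σ).eq, Module.End.mul_apply, h4, map_zero]

end Fermat.Agent.ORD.P7
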