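import Mathlib

/-!
# ORD / P7 / NoKerB : a group acting on a nonzero finite group of exponent `p` with `(τ - 1)² = 0` for all `τ` has a nonzero fixed vector.

PROOF.  `τ ^ k x = x + k • (τ x - x)` on `Ξ` by induction, so `τ ^ p = 1` on `Ξ`.  The image `G₀` of `H` in `Equiv.Perm Ξ` is a group in which every element has order dividing `p`:
`IsPGroup p G₀`.  `p ∣ Nat.card Ξ` (`y` has additive order `p`: `addOrderOf_dvd_natCard`), `0` is a fixed point:
`IsPGroup.exists_fixed_point_of_prime_dvd_card_of_fixed_point`.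
-/

set_option autoImplicit false

namespace Fermat.Agent.ORD.P7

theorem exists_fixed_vector {G W : Type} [Group G] [AddCommGroup W] {p : ℕ} (hp : p.Prime)
    (act : G →* Module.End ℤ W) (H : Subgroup G) (Ξ : AddSubgroup W) (hfin : (Ξ : Set W).Finite)
    (hpΞ : ∀ x ∈ Ξ, p • x = 0) (hact : ∀ τ ∈ H, ∀ x ∈ Ξ, act τ x ∈ Ξ)
    (hquad : ∀ τ ∈ H, ∀ x ∈ Ξ, act τ (act τ x) - 2 • act τ x + x = 0)
    (y : W) (hy : y ∈ Ξ) (hy0 : y ≠ 0) :
    ∃ b ∈ Ξ, b ≠ 0 ∧ ∀ τ ∈ H, act τ b = b := by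
  classical
  have hKfin : Finite Ξ := hfin.to_subtype
  have hquad' : ∀ τ ∈ H, ∀ x ∈ Ξ, act τ (act τ x) - act τ x = act τ x - x := by
    intro τ hτ x hx
    have h := hquad τ hτ x hx
    rw [two_smul] at h
    rw [sub_eq_sub_iff_add_eq_add, ← sub_eq_zero, ← h]
    abel
  have hpow : ∀ τ ∈ H, ∀ x ∈ Ξ, ∀ i : ℕ, act (τ ^ i) x = x + i • (act τ x - x) := by
    intro τ hτ x hx i
    induction i with
    | zero => rw [pow_zero, map_one, Module.End.one_apply, zero_smul, add_zero]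
    | succ i ih =>
      rw [pow_succ', map_mul, Module.End.mul_apply, ih, map_add, map_nsmul, map_sub,
        hquad' τ hτ x hx, succ_nsmul]
      abel
  have hpp : ∀ τ ∈ H, ∀ x ∈ Ξ, act (τ ^ p) x = x := by
    intro τ hτ x hx
    rw [hpow τ hτ x hx p, smul_sub, hpΞ _ (hact τ hτ x hx), hpΞ x hx, sub_zero, add_zero]
  let _ : MulAction H Ξ :=
    { smul := fun τ x => ⟨act τ.1 x.1, hact τ.1 τ.2 x.1 x.2⟩
      one_smul := fun x => Subtype.ext (by
        show act ((1 : H) : G) x.1 = x.1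
        rw [Subgroup.coe_one, map_one, Module.End.one_apply])
      mul_smul := fun σ τ x => Subtype.ext (by
        show act ((σ * τ : H) : G) x.1 = act σ.1 (act τ.1 x.1)
        rw [Subgroup.coe_mul, map_mul, Module.End.mul_apply]) }
  have hsmul : ∀ (τ : H) (x : Ξ), ((τ • x : Ξ) : W) = act τ.1 x.1 := fun _ _ => rfl
  have hG : IsPGroup p (MulAction.toPermHom H Ξ).range := by
    rintro ⟨_, τ, rfl⟩
    refine ⟨1, Subtype.ext ?_⟩
    rw [pow_one, Subgroup.coe_pow, Subgroup.coe_one, ← map_pow]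
    ext x
    rw [MulAction.toPermHom_apply, MulAction.toPerm_apply, hsmul, Equiv.Perm.one_apply,
      Subgroup.coe_pow]
    exact hpp τ.1 τ.2 x.1 x.2
  have : Fact p.Prime := ⟨hp⟩
  have hcard : p ∣ Nat.card Ξ := by
    have h1 : addOrderOf (⟨y, hy⟩ : Ξ) = p := by
      apply addOrderOf_eq_prime
      · exact Subtype.ext (hpΞ y hy)
      · exact fun h => hy0 (congrArg Subtype.val h)
    rw [← h1]
    exact addOrderOf_dvd_natCard _
  have h0 : (0 : Ξ) ∈ MulAction.fixedPoints (MulAction.toPermHom H Ξ).range Ξ := by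
    rintro ⟨_, τ, rfl⟩
    apply Subtype.ext
    show act τ.1 ((0 : Ξ) : W) = ((0 : Ξ) : W)
    rw [AddSubgroup.coe_zero, map_zero]
  obtain ⟨b, hb, hne⟩ := hG.exists_fixed_point_of_prime_dvd_card_of_fixed_point Ξ hcard h0
  refine ⟨b.1, b.2, fun h => hne (Subtype.ext (by rw [AddSubgroup.coe_zero, h])), fun τ hτ => ?_⟩
  have := hb ⟨_, ⟨τ, hτ⟩, rfl⟩
  exact congrArg Subtype.val this

end Fermat.Agent.ORD.P7
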