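import Fermat.Agent.ORD.P0.Quad
import Fermat.Agent.ORD.P0.Res
import Fermat.Agent.ORD.P7.NoKerA
import Fermat.Agent.ORD.P7.NoKerB

/-!
# ORD / P7 / NoKernel : `T_p` is injective on `W[𝔪]` at the level prime to `p` (from residual ordinarity and (WF)).
-/

set_option autoImplicit false

namespace Fermat.Agent.ORD.P7

open Fermat.Agent.GR.Adic (GQ FixesLevel)
open Fermat.Agent.GR.Asm (WeakChebotarev)
open Fermat.Agent.ORD.P0 IsLocalRing

local notation "Qbar'" => AlgebraicClosure ℚ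

/-- `H₁ = {τ ∈ I | τ = 1 on μ_p}`. -/
def H1 (P : ValuationSubring Qbar') (p : ℕ) : Subgroup GQ where
  carrier := {τ | τ ∈ P.inertiaSubgroupIn ℚ ∧ ∀ ζ : Qbar', ζ ^ p = 1 → τ ζ = ζ}
  mul_mem' := by
    rintro a b ⟨ha, ha'⟩ ⟨hb, hb'⟩
    refine ⟨mul_mem ha hb, fun ζ hζ => ?_⟩
    show a (b ζ) = ζ
    rw [hb' ζ hζ, ha' ζ hζ]
  one_mem' := ⟨one_mem _, fun _ _ => rfl⟩
  inv_mem' := by
    rintro a ⟨ha, ha'⟩
    refine ⟨inv_mem ha, fun ζ hζ => ?_⟩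
    have h := ha' ζ hζ
    show a.symm ζ = ζ
    rw [AlgEquiv.symm_apply_eq, h]

theorem no_kernel {bad : Finset ℕ} {HH : Type} [CommRing HH] (hcheb : WeakChebotarev) {p : ℕ}
    (hp : p.Prime) (hpbad : p ∈ bad)
    (X : HSys bad HH) (hU : X.U = 1) {T : Type} [CommRing T] [IsLocalRing T]
    [Finite (ResidueField T)] (hpT : (p : T) ∈ maximalIdeal T) (ψ : HH →+* T)
    (ρ : GaloisRepAdic T) (hatt : Attached X ψ ρ)
    (hres : (GaloisRepAdic.ofResidualGaloisRep ρ.residual).IsOrdinaryAt p)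
    (P : ValuationSubring Qbar') (hP : P.LiesOverPrime p)
    (Tp : Module.End ℤ X.W) (hTact : ∀ σ : GQ, Commute Tp (X.act σ))
    (hTop : ∀ D : HH, Commute Tp (X.op D))
    (hwf : ∀ y : X.W, p • y = 0 → Tp y = 0 →
      (∀ τ ∈ P.inertiaSubgroupIn ℚ, (∀ ζ : Qbar', ζ ^ p = 1 → τ ζ = ζ) → X.act τ y = y) → y = 0)
    (y : X.W) (hy : ∀ D ∈ mOf ψ, X.op D y = 0) (hTy : Tp y = 0) : y = 0 := by
  by_contra hy0
  obtain ⟨Ξ, hΞ, hyΞ, hall⟩ := exists_good_socle hp X hU hpT ψ Tp hTact hTop y hy hTy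
  obtain ⟨b, hbΞ, hb0, hfix⟩ := exists_fixed_vector hp X.act (H1 P p) Ξ hΞ.fin
    (fun x hx => (hall x hx).2.2) (fun τ _ x hx => hΞ.act_mem τ x hx)
    (fun τ hτ x hx => by
      have hdet := det_sub_mem hcheb hp hpbad X hpT ψ ρ hatt τ 1
        (fun ζ hζ => by rw [pow_one]; exact hτ.2 ζ hζ)
      have htr : LinearMap.trace T ρ.V (ρ.ρ τ) - (1 + (1 : ℕ)) ∈ maximalIdeal T := by
        have h1 := trace_sub_one_add_det_mem ρ hres P hP τ hτ.1
        have h2 := Ideal.add_mem _ h1 hdet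
        convert h2 using 1
        ring
      have h := quad_on_socle hcheb hp hpbad X hpT ψ ρ hatt Ξ hΞ τ 1
        (fun ζ hζ => by rw [pow_one]; exact hτ.2 ζ hζ) htr x hx (hall x hx).1
      rw [one_smul] at h
      exact h) y hyΞ hy0
  exact hb0 (hwf b (hall b hbΞ).2.2 (hall b hbΞ).2.1 fun τ hτ hζ => hfix τ ⟨hτ, hζ⟩)

end Fermat.Agent.ORD.P7
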