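import Fermat.Agent.ORD.P7.HeckeMap
import Fermat.Agent.ORD.P7.NoKernel
import Fermat.Agent.ORD.P7.HWf
import Fermat.Agent.ORD.P7.FaithGlue

/-!
# ORD / P7 / OrdLat : (ORD-lat) from (WF), and `Faith` from (FAITH-lat).  Assembly (no own sorry).
-/

set_option autoImplicit false

open ModularCurve AlgebraicCurve CongruenceSubgroup
open Fermat.Agent.GAL Fermat.Agent.GAL.HK Fermat.Agent.GR Fermat.Agent.GR.CB Fermat.Agent.TOR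
open Fermat.Agent.GR.Asm (WeakChebotarev)
open Fermat.Agent.ORD.P0 IsLocalRing
open scoped MatrixGroups

noncomputable section

namespace Fermat.Agent.ORD.P7

local notation "Qbar'" => AlgebraicClosure ℚ

/-- `Attached` for the systems built from `rawS`. -/
theorem attachedS {M p : ℕ} (hp : p.Prime) (𝒜 : AnFamily M p) (hes : RT.ESElem 𝒜)
    (bad : Finset ℕ) (hbad : ∀ ℓ : ℕ, ℓ.Prime → ℓ ∉ bad → ¬ ℓ ∣ M * p) (U : Module.End ℤ (SS 𝒜))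
    (hU : ∀ σ : GAL.GQ, Commute U (actS 𝒜 σ))
    {T : Type} [CommRing T] [IsLocalRing T] (ψ : HH →+* T) (ρ : GaloisRepAdic T)
    (hatt : ∀ ℓ : ℕ, ℓ.Prime → ℓ ∉ bad → ∀ A : ValuationSubring Qbar', A.LiesOverPrime ℓ →
      ∀ σ : GAL.GQ, A.IsFrobeniusAt σ ℓ →
        LinearMap.charpoly (ρ.ρ σ) = Polynomial.X ^ 2
          - Polynomial.C (ψ (MvPolynomial.X ℓ)) * Polynomial.X + Polynomial.C (ℓ : T)) :
    Attached (rawS hp 𝒜 hes bad hbad U hU).toHSys ψ ρ := hatt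

/-- **(ORD-lat)** from (WF) and residual ordinarity. -/
theorem ordLatH (hW : WFStatement) (hcheb : WeakChebotarev) {M₁ p : ℕ} [NeZero M₁] [NeZero p]
    (hM₁ : AdmLevel M₁) (hp : p.Prime) (hp2 : p ≠ 2) (hpM₁ : ¬ p ∣ M₁)
    (𝒜 : AnFamily M₁ p) (hes : RT.ESElem 𝒜) (bad : Finset ℕ) (hpbad : p ∈ bad)
    (hbad : ∀ ℓ : ℕ, ℓ.Prime → ℓ ∉ bad → ¬ ℓ ∣ M₁ * p)
    {T : Type} [CommRing T] [IsLocalRing T] [Finite (ResidueField T)]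
    (hpT : (p : T) ∈ maximalIdeal T) (ψ : HH →+* T) (ρ : GaloisRepAdic T)
    (hatt : ∀ ℓ : ℕ, ℓ.Prime → ℓ ∉ bad → ∀ A : ValuationSubring Qbar', A.LiesOverPrime ℓ →
      ∀ σ : GAL.GQ, A.IsFrobeniusAt σ ℓ →
        LinearMap.charpoly (ρ.ρ σ) = Polynomial.X ^ 2
          - Polynomial.C (ψ (MvPolynomial.X ℓ)) * Polynomial.X + Polynomial.C (ℓ : T))
    (hres : (GaloisRepAdic.ofResidualGaloisRep ρ.residual).IsOrdinaryAt p) :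
    OrdLatH M₁ hp hpM₁ (↑bad : Set ℕ) ψ := by
  intro x hx hTx
  obtain ⟨P, hP⟩ := Fermat.Agent.Lib.FrobeniusExists.exists_liesOverPrime (L := Qbar') hp
  have hU1 : ∀ σ : GAL.GQ, Commute (1 : Module.End ℤ (SS 𝒜)) (actS 𝒜 σ) :=
    fun σ => Commute.one_left _
  set R := rawS hp 𝒜 hes bad hbad 1 hU1 with hR
  have hTact : ∀ σ : GAL.GQ, Commute (TS 𝒜 p) (actS 𝒜 σ) := RT.TS_actS_commute 𝒜 p hp hpM₁
  have key := no_kernel hcheb hp hpbad R.toHSys rfl hpT ψ ρ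
    (attachedS hp 𝒜 hes bad hbad 1 hU1 ψ ρ hatt) hres P hP (TS 𝒜 p) hTact
    (fun D => R.commute_op (TS 𝒜 p) hTact D)
    (fun y hpy hT hfix => hwfS hW (NeZero.ne M₁) hM₁ hp hp2 hpM₁ 𝒜 P hP y hpy hT hfix)
    (kappaS 𝒜 1 x) ?_ ?_
  · obtain ⟨y, hy⟩ := (RT.kappaS_eq_zero_iff 𝒜 1 x).1 key
    exact ⟨y, by rw [hy, pow_one]⟩
  · intro D hD
    obtain ⟨y, hy⟩ := hx D hD
    have h1 := kappaS_opL hp 𝒜 hes bad hbad 1 hU1 1 D x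
    have h2 : kappaS 𝒜 1 (opL M₁ (↑bad : Set ℕ) D x) = 0 :=
      (RT.kappaS_eq_zero_iff 𝒜 1 _).2 ⟨y, by rw [hy, pow_one]⟩
    rw [h2] at h1
    exact h1.symm
  · obtain ⟨y, hy⟩ := hTx
    have h1 := RT.kappaS_hecke 𝒜 p hp hpM₁ 1 x (latT M₁ hp hpM₁ x) (coe_latT_apply M₁ hp hpM₁ x)
    have h2 : kappaS 𝒜 1 (latT M₁ hp hpM₁ x) = 0 :=
      (RT.kappaS_eq_zero_iff 𝒜 1 _).2 ⟨y, by rw [hy, pow_one]⟩
    rw [h2] at h1
    exact h1.symm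

/-- `Faith` from (FAITH-lat). -/
theorem faithS {M p : ℕ} [NeZero M] [NeZero p] (hp : p.Prime) (hpM : p ∣ M) (𝒜 : AnFamily M p)
    (hes : RT.ESElem 𝒜) (bad : Finset ℕ) (hbad : ∀ ℓ : ℕ, ℓ.Prime → ℓ ∉ bad → ¬ ℓ ∣ M * p)
    (hAU : AnU 𝒜 p hp hpM) {T : Type} [CommRing T] [IsLocalRing T] (ψ : HH →+* T)
    (hF : FaithLatH M hp hpM (↑bad : Set ℕ) ψ) :
    Faith (rawS hp 𝒜 hes bad hbad (US hAU) (US_actS hAU)).toHSys ψ := by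
  obtain ⟨s, hs, hFS⟩ := hF
  exact faith_of_lattice hp (rawS hp 𝒜 hes bad hbad (US hAU) (US_actS hAU)).toHSys ψ
    (Λ := Lat M) (kappaS 𝒜) (RT.kappaS_eq_zero_iff 𝒜) (opL M (↑bad : Set ℕ)) (latU M hp hpM)
    (fun k D x => kappaS_opL hp 𝒜 hes bad hbad (US hAU) (US_actS hAU) k D x)
    (fun k x => kappaS_latU hAU k x) s hs hFS

end Fermat.Agent.ORD.P7
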