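import Fermat.Agent.ORD.P0.Defs
import Fermat.Agent.Lib.FrobeniusExists

/-!
# ORD / P7 / Build : construction of an `HSys bad (MvPolynomial ℕ ℤ)` from raw data (a family of operators `Tf ℓ`).

The operators `Tf ℓ` commute with each other (and with `U`) because `Tf ℓ = act σ + ℓ act σ⁻¹` for a Frobenius `σ` at `ℓ`, and everything
commutes with the Galois action.
-/

set_option autoImplicit false

namespace Fermat.Agent.ORD.P7

open Fermat.Agent.GR.Adic (GQ FixesLevel)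
open Fermat.Agent.ORD.P0

local notation "Qbar'" => AlgebraicClosure ℚ

/-- the abstract Hecke ring. -/
abbrev HH : Type := MvPolynomial ℕ ℤ

open scoped IsMulCommutative in
/-- a commuting family of operators defines an action of the polynomial ring.
PROOF: `Algebra.adjoinCommRingOfComm ℤ` on `Set.range Tf`, `MvPolynomial.aeval`, then `Subalgebra.val`; last claim: `MvPolynomial.induction_on`. -/
theorem exists_op {W : Type} [AddCommGroup W] (Tf : ℕ → Module.End ℤ W)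
    (hT : ∀ i j, Commute (Tf i) (Tf j)) :
    ∃ op : HH →+* Module.End ℤ W, (∀ i, op (MvPolynomial.X i) = Tf i) ∧
      ∀ f : Module.End ℤ W, (∀ i, Commute f (Tf i)) → ∀ D, Commute f (op D) := by
  have hcomm : ∀ a ∈ Set.range Tf, ∀ b ∈ Set.range Tf, a * b = b * a := by
    rintro _ ⟨i, rfl⟩ _ ⟨j, rfl⟩
    exact hT i j
  have := Algebra.isMulCommutative_adjoin ℤ hcomm
  let g := MvPolynomial.aeval (R := ℤ) (S₁ := Algebra.adjoin ℤ (Set.range Tf))
    (fun i : ℕ => (⟨Tf i, Algebra.subset_adjoin ⟨i, rfl⟩⟩ : Algebra.adjoin ℤ (Set.range Tf)))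
  refine ⟨(Algebra.adjoin ℤ (Set.range Tf)).val.toRingHom.comp g.toRingHom, fun i => ?_,
    fun f hf D => ?_⟩
  · show ((g (MvPolynomial.X i) : Algebra.adjoin ℤ (Set.range Tf)) : Module.End ℤ W) = Tf i
    rw [MvPolynomial.aeval_X]
  · show Commute f ((g D : Algebra.adjoin ℤ (Set.range Tf)) : Module.End ℤ W)
    refine Algebra.commute_of_mem_adjoin_of_forall_mem_commute (g D).2 ?_
    rintro _ ⟨i, rfl⟩
    exact hf i

/-- raw data for an `HSys`. -/
structure Raw (bad : Finset ℕ) : Type 1 where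
  W : Type
  [instW : AddCommGroup W]
  act : GQ →* Module.End ℤ W
  smooth : ∀ x : W, ∃ L : IntermediateField ℚ Qbar', FiniteDimensional ℚ L ∧
    ∀ σ : GQ, FixesLevel L σ → act σ x = x
  Tf : ℕ → Module.End ℤ W
  Tf_junk : ∀ ℓ : ℕ, ¬ (ℓ.Prime ∧ ℓ ∉ bad) → Tf ℓ = 0
  Tf_act : ∀ (ℓ : ℕ) (σ : GQ), Commute (Tf ℓ) (act σ)
  frob : ∀ ℓ : ℕ, ℓ.Prime → ℓ ∉ bad → ∀ A : ValuationSubring Qbar', A.LiesOverPrime ℓ →
    ∀ σ : GQ, A.IsFrobeniusAt σ ℓ →
      act σ * act σ - Tf ℓ * act σ + (ℓ : Module.End ℤ W) = 0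
  U : Module.End ℤ W
  U_act : ∀ σ : GQ, Commute U (act σ)

attribute [instance] Raw.instW

variable {bad : Finset ℕ}

/-- anything commuting with Galois commutes with `Tf ℓ`.
PROOF: junk `ℓ`: `Tf ℓ = 0`.  Otherwise `Lib.FrobeniusExists.exists_frobenius` gives `A`, `σ`; multiply `frob` by `act σ⁻¹` on the right:
`Tf ℓ = act σ + ℓ * act σ⁻¹` (cf. `hsum` in `ORD/P0/Cheb.lean`, `Cheb_lucas_eq`). -/
theorem Raw.commute_Tf (R : Raw bad) (f : Module.End ℤ R.W) (hf : ∀ σ : GQ, Commute f (R.act σ))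
    (ℓ : ℕ) : Commute f (R.Tf ℓ) := by
  by_cases hℓ : ℓ.Prime ∧ ℓ ∉ bad
  · obtain ⟨A, σ, hA, hσ⟩ := Lib.FrobeniusExists.exists_frobenius hℓ.1
    have h := R.frob ℓ hℓ.1 hℓ.2 A hA σ hσ
    have hinv : R.act σ * R.act σ⁻¹ = 1 := by rw [← map_mul, mul_inv_cancel, map_one]
    have hT : R.Tf ℓ = R.act σ + (ℓ : Module.End ℤ R.W) * R.act σ⁻¹ := by
      have h1 := congrArg (· * R.act σ⁻¹) h
      simp only [add_mul, sub_mul, zero_mul, mul_assoc, hinv, mul_one] at h1
      rw [← sub_eq_zero, ← neg_eq_zero, ← h1]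
      abel
    rw [hT]
    exact (hf σ).add_right ((Nat.commute_cast f ℓ).mul_right (hf σ⁻¹))
  · rw [R.Tf_junk ℓ hℓ]
    exact Commute.zero_right f

theorem Raw.Tf_comm (R : Raw bad) (i j : ℕ) : Commute (R.Tf i) (R.Tf j) :=
  R.commute_Tf _ (R.Tf_act i) j

/-- the action of the polynomial ring. -/
noncomputable def Raw.op (R : Raw bad) : HH →+* Module.End ℤ R.W := (exists_op R.Tf R.Tf_comm).choose

theorem Raw.op_X (R : Raw bad) (i : ℕ) : R.op (MvPolynomial.X i) = R.Tf i :=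
  (exists_op R.Tf R.Tf_comm).choose_spec.1 i

theorem Raw.commute_op' (R : Raw bad) (f : Module.End ℤ R.W) (hf : ∀ i, Commute f (R.Tf i))
    (D : HH) : Commute f (R.op D) :=
  (exists_op R.Tf R.Tf_comm).choose_spec.2 f hf D

theorem Raw.commute_op (R : Raw bad) (f : Module.End ℤ R.W) (hf : ∀ σ : GQ, Commute f (R.act σ))
    (D : HH) : Commute f (R.op D) :=
  R.commute_op' f (R.commute_Tf f hf) D

/-- the `HSys` attached to raw data. -/
noncomputable def Raw.toHSys (R : Raw bad) : HSys bad HH where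
  W := R.W
  act := R.act
  smooth := R.smooth
  op := R.op
  op_act := fun D σ => (R.commute_op' (R.act σ) (fun i => (R.Tf_act i σ).symm) D).symm
  τ := fun ℓ => MvPolynomial.X ℓ
  frob := fun ℓ hℓ hb A hA σ hσ => by rw [R.op_X]; exact R.frob ℓ hℓ hb A hA σ hσ
  U := R.U
  U_act := R.U_act
  U_op := fun D => R.commute_op R.U R.U_act D

end Fermat.Agent.ORD.P7
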