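import Fermat.Agent.ORD.P6.Faith
import Fermat.Agent.ORD.P6.Glue
import Fermat.Agent.ORD.P6.OrdLatAbs
import Fermat.Agent.ORD.P7.HWf
import Fermat.Agent.GR.Adic.LevelRes

/-!
# ORD / P7 / FaithConc : the hypothesis `hfaith : Faith X ψ` of `P0.ordAt_of_hsys` for the concrete `HSys` on `SS 𝒜`

* `phiS M bad : HH →+* heckeAlgebra M 2 ↑bad`, `X ℓ ↦ T_ℓ` (junk `0`)
* `kappaS_op`  : `κ_k` is equivariant for the polynomial Hecke ring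
* `attachedS`  : `Attached X ψ H.ρ`,  `ψ = H.π ∘ r ∘ phiS`
* `ordLatS`    : (ORD-lat) at level `M₁` from `WFStatement` and residual ordinarity
* `faithS`     : `Faith X ψ`
-/

set_option autoImplicit false

open ModularCurve AlgebraicCurve CongruenceSubgroup IsLocalRing
open Fermat.Agent.GAL Fermat.Agent.GAL.HK Fermat.Agent.GR Fermat.Agent.GR.CB Fermat.Agent.TOR
open Fermat.Agent.GR.Adic (badSet)
open Fermat.Agent.GR.Asm (WeakChebotarev)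
open Fermat.Agent.ORD.P0 Fermat.Agent.ORD.P6

noncomputable section

namespace Fermat.Agent.ORD.P7.FC

/-! ### abstract lemmas -/

/-- equivariance for the polynomial ring follows from equivariance for the variables. -/
theorem faithConc_induction {W Λ : Type*} [AddCommGroup W] [AddCommGroup Λ]
    (op : HH →+* Module.End ℤ W) (opΛ : HH →+* Module.End ℤ Λ) (κ : Λ →+ W)
    (h : ∀ i x, op (MvPolynomial.X i) (κ x) = κ (opΛ (MvPolynomial.X i) x)) (D : HH) :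
    ∀ x, op D (κ x) = κ (opΛ D x) := by
  induction D using MvPolynomial.induction_on with
  | C a =>
    intro x
    rw [eq_intCast (MvPolynomial.C : ℤ →+* HH) a, map_intCast, map_intCast,
      Module.End.intCast_apply, Module.End.intCast_apply, map_zsmul]
  | add D D' hD hD' =>
    intro x
    rw [map_add, map_add, LinearMap.add_apply, LinearMap.add_apply, map_add, hD, hD']
  | mul_X D i hD =>
    intro x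
    rw [map_mul, map_mul, Module.End.mul_apply, Module.End.mul_apply, h, hD]

/-- a commutative ring acting faithfully on a lattice is noetherian. -/
theorem faithConc_fg {TT : Type*} [CommRing TT] {Λ : Type*} [AddCommGroup Λ] [Module.Free ℤ Λ]
    [Module.Finite ℤ Λ] (ι : TT →+* Module.End ℤ Λ) (hι : Function.Injective ι) (I : Ideal TT) :
    I.FG := by
  have hfinTT : Module.Finite ℤ TT := Module.Finite.of_injective ι.toAddMonoidHom.toIntLinearMap hι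
  have hnoeth : IsNoetherianRing TT := IsNoetherianRing.of_finite ℤ TT
  exact IsNoetherian.noetherian _

/-! ### the map `HH → 𝕋` -/

open Classical in
/-- the generators. -/
def gS (M : ℕ) [NeZero M] (bad : Finset ℕ) (ℓ : ℕ) : CuspForm.heckeAlgebra M 2 (↑bad : Set ℕ) :=
  if h : ℓ.Prime ∧ ¬ ℓ ∣ M ∧ ℓ ∉ (↑bad : Set ℕ) then CuspForm.heckeAlgebra.T h.1 h.2.1 h.2.2 else 0

/-- `X ℓ ↦ T_ℓ`. -/
def phiS (M : ℕ) [NeZero M] (bad : Finset ℕ) : HH →+* CuspForm.heckeAlgebra M 2 (↑bad : Set ℕ) :=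
  MvPolynomial.eval₂Hom (Int.castRingHom _) (gS M bad)

theorem phiS_X (M : ℕ) [NeZero M] (bad : Finset ℕ) {ℓ : ℕ} (hℓ : ℓ.Prime) (hℓM : ¬ ℓ ∣ M)
    (hb : ℓ ∉ (↑bad : Set ℕ)) :
    phiS M bad (MvPolynomial.X ℓ) = CuspForm.heckeAlgebra.T hℓ hℓM hb := by
  rw [phiS, MvPolynomial.coe_eval₂Hom, MvPolynomial.eval₂_X, gS, dif_pos ⟨hℓ, hℓM, hb⟩]

theorem phiS_X_junk (M : ℕ) [NeZero M] (bad : Finset ℕ) {ℓ : ℕ} (h : ¬ (ℓ.Prime ∧ ℓ ∉ bad)) :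
    phiS M bad (MvPolynomial.X ℓ) = 0 := by
  rw [phiS, MvPolynomial.coe_eval₂Hom, MvPolynomial.eval₂_X, gS, dif_neg]
  exact fun h' => h ⟨h'.1, fun hb => h'.2.2 (Finset.mem_coe.2 hb)⟩

/-! ### equivariance of `κ` -/

theorem kappaS_op {M p : ℕ} [NeZero M] (hp : p.Prime) (𝒜 : AnFamily M p) (hes : RT.ESElem 𝒜)
    (bad : Finset ℕ) (hbad : ∀ ℓ : ℕ, ℓ.Prime → ℓ ∉ bad → ¬ ℓ ∣ M * p) (U : Module.End ℤ (SS 𝒜))
    (hU : ∀ σ : GAL.GQ, Commute U (actS 𝒜 σ))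
    (opΛ : HH →+* Module.End ℤ (Lat M))
    (hgood : ∀ (ℓ : ℕ) (hℓ : ℓ.Prime) (hℓM : ¬ ℓ ∣ M), ℓ ∉ bad →
      opΛ (MvPolynomial.X ℓ) = latT M hℓ hℓM)
    (hjunk : ∀ ℓ : ℕ, ¬ (ℓ.Prime ∧ ℓ ∉ bad) → opΛ (MvPolynomial.X ℓ) = 0)
    (k : ℕ) (D : HH) (x : Lat M) :
    (rawS hp 𝒜 hes bad hbad U hU).toHSys.op D (kappaS 𝒜 k x) = kappaS 𝒜 k (opΛ D x) := by
  let κR : Lat M →+ (rawS hp 𝒜 hes bad hbad U hU).W := (kappaS 𝒜 k).toAddMonoidHom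
  refine faithConc_induction (rawS hp 𝒜 hes bad hbad U hU).op opΛ κR ?_ D x
  intro ℓ x
  rw [Raw.op_X]
  show TfS 𝒜 bad ℓ (kappaS 𝒜 k x) = kappaS 𝒜 k (opΛ (MvPolynomial.X ℓ) x)
  by_cases h : ℓ.Prime ∧ ℓ ∉ bad
  · have hℓM : ¬ ℓ ∣ M := fun hd => hbad ℓ h.1 h.2 (Dvd.dvd.mul_right hd p)
    rw [TfS_of_good 𝒜 bad h.1 h.2, hgood ℓ h.1 hℓM h.2]
    exact (RT.kappaS_hecke 𝒜 ℓ h.1 hℓM k x _ (coe_latT_apply M h.1 hℓM x)).symm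
  · rw [hjunk ℓ h, TfS, if_neg h, LinearMap.zero_apply, LinearMap.zero_apply, map_zero]

/-! ### the concrete statements -/

section main

variable {p : ℕ} {N : ℕ} [NeZero N] {S : Finset ℕ}
    {𝒪 : Type} [CommRing 𝒪] [IsDomain 𝒪] [IsDiscreteValuationRing 𝒪]
    [IsAdicComplete (IsLocalRing.maximalIdeal 𝒪) 𝒪]
    {θ : CuspForm.heckeAlgebra N 2 (↑S : Set ℕ) →+* IsLocalRing.ResidueField 𝒪}
    {T : Type} [CommRing T] [IsLocalRing T] [IsNoetherianRing T]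
    [IsAdicComplete (IsLocalRing.maximalIdeal T) T] [Algebra 𝒪 T] [IsLocalHom (algebraMap 𝒪 T)]
    [Module.Finite 𝒪 T] [Module.Free 𝒪 T]

/-- `ψ = H.π ∘ r ∘ phiS`. -/
def psiS (H : CuspForm.HeckeGaloisRepDatum N (↑S : Set ℕ) 𝒪 θ T) {M : ℕ} [NeZero M]
    (bad : Finset ℕ)
    (r : CuspForm.heckeAlgebra M 2 (↑bad : Set ℕ) →+* CuspForm.heckeAlgebra N 2 (↑S : Set ℕ)) :
    HH →+* T := H.π.comp (r.comp (phiS M bad))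

theorem psiS_apply (H : CuspForm.HeckeGaloisRepDatum N (↑S : Set ℕ) 𝒪 θ T) {M : ℕ} [NeZero M]
    (bad : Finset ℕ)
    (r : CuspForm.heckeAlgebra M 2 (↑bad : Set ℕ) →+* CuspForm.heckeAlgebra N 2 (↑S : Set ℕ))
    (D : HH) : psiS H bad r D = (H.π.comp r) (phiS M bad D) := rfl

/-- `Attached X ψ H.ρ` for every `HSys` with `τ ℓ = X ℓ`. -/
theorem attachedS (H : CuspForm.HeckeGaloisRepDatum N (↑S : Set ℕ) 𝒪 θ T) {M : ℕ} [NeZero M]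
    (hNM : N ∣ M) (bad : Finset ℕ) (hS : S ⊆ bad)
    (hbad : ∀ ℓ : ℕ, ℓ.Prime → ℓ ∉ bad → ¬ ℓ ∣ M)
    (r : CuspForm.heckeAlgebra M 2 (↑bad : Set ℕ) →+* CuspForm.heckeAlgebra N 2 (↑S : Set ℕ))
    (hr : ∀ (ℓ : ℕ) (hℓ : ℓ.Prime) (hℓM : ¬ ℓ ∣ M) (hℓS' : ℓ ∉ (↑bad : Set ℕ)) (hℓN : ¬ ℓ ∣ N)
      (hℓS : ℓ ∉ (↑S : Set ℕ)),
      r (CuspForm.heckeAlgebra.T hℓ hℓM hℓS') = CuspForm.heckeAlgebra.T hℓ hℓN hℓS)
    (X : HSys bad HH) (hX : ∀ ℓ, X.τ ℓ = MvPolynomial.X ℓ) :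
    Attached X (psiS H bad r) H.ρ := by
  intro ℓ hℓ hb A hA σ hσ
  have hℓM : ¬ ℓ ∣ M := hbad ℓ hℓ hb
  have hℓN : ¬ ℓ ∣ N := fun h => hℓM (h.trans hNM)
  have hℓS : ℓ ∉ (↑S : Set ℕ) := fun h => hb (hS (Finset.mem_coe.1 h))
  have hb' : ℓ ∉ (↑bad : Set ℕ) := fun h => hb (Finset.mem_coe.1 h)
  rw [H.charpoly_frob ℓ hℓ hℓN hℓS A hA σ hσ, hX, psiS_apply, phiS_X M bad hℓ hℓM hb',
    RingHom.comp_apply, hr ℓ hℓ hℓM hb' hℓN hℓS]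

theorem natCast_mem_maximalIdeal_T (hp𝒪 : (p : 𝒪) ∈ maximalIdeal 𝒪) : (p : T) ∈ maximalIdeal T := by
  rw [mem_maximalIdeal, mem_nonunits_iff]
  intro hu
  have h1 : IsUnit (algebraMap 𝒪 T (p : 𝒪)) := by rwa [map_natCast]
  exact (mem_maximalIdeal _).1 hp𝒪 (isUnit_of_map_unit (algebraMap 𝒪 T) _ h1)

/-- **(ORD-lat)** at level `M₁` from `WFStatement` and residual ordinarity. -/
theorem ordLatS (hcheb : WeakChebotarev) (hW : WFStatement) [NeZero p] [Finite (ResidueField T)]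
    (hp : p.Prime) (hp2 : p ≠ 2) (hp𝒪 : (p : 𝒪) ∈ maximalIdeal 𝒪)
    (H : CuspForm.HeckeGaloisRepDatum N (↑S : Set ℕ) 𝒪 θ T)
    (hres : (GaloisRepAdic.ofResidualGaloisRep H.ρ.residual).IsOrdinaryAt p)
    {M₁ : ℕ} [NeZero M₁] (hM₁ : AdmLevel M₁) (hpM₁ : ¬ p ∣ M₁) (hNM : N ∣ M₁ * p)
    (bad : Finset ℕ) (hS : S ⊆ bad) (hpbad : p ∈ bad)
    (hbad : ∀ ℓ : ℕ, ℓ.Prime → ℓ ∉ bad → ¬ ℓ ∣ M₁ * p)
    (r : CuspForm.heckeAlgebra (M₁ * p) 2 (↑bad : Set ℕ) →+* CuspForm.heckeAlgebra N 2 (↑S : Set ℕ))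
    (hr : ∀ (ℓ : ℕ) (hℓ : ℓ.Prime) (hℓM : ¬ ℓ ∣ M₁ * p) (hℓS' : ℓ ∉ (↑bad : Set ℕ))
      (hℓN : ¬ ℓ ∣ N) (hℓS : ℓ ∉ (↑S : Set ℕ)),
      r (CuspForm.heckeAlgebra.T hℓ hℓM hℓS') = CuspForm.heckeAlgebra.T hℓ hℓN hℓS)
    (r₁ : CuspForm.heckeAlgebra (M₁ * p) 2 (↑bad : Set ℕ) →+*
      CuspForm.heckeAlgebra M₁ 2 (↑bad : Set ℕ))
    (hr₁ : ∀ (ℓ : ℕ) (hℓ : ℓ.Prime) (hℓM : ¬ ℓ ∣ M₁ * p) (hℓS' : ℓ ∉ (↑bad : Set ℕ))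
      (hℓM₁ : ¬ ℓ ∣ M₁),
      r₁ (CuspForm.heckeAlgebra.T hℓ hℓM hℓS') = CuspForm.heckeAlgebra.T hℓ hℓM₁ hℓS')
    (𝒜₁ : AnFamily M₁ p) (hes₁ : RT.ESElem 𝒜₁)
    (P : ValuationSubring Qb) (hP : P.LiesOverPrime p) :
    OrdLat p M₁ hp hpM₁ ((iota M₁ (↑bad : Set ℕ)).comp r₁)
      ((maximalIdeal T).comap (H.π.comp r)) := by
  intro x hx hTx
  have hpT : (p : T) ∈ maximalIdeal T := natCast_mem_maximalIdeal_T hp𝒪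
  have h1 : ∀ σ : GAL.GQ, Commute (1 : Module.End ℤ (SS 𝒜₁)) (actS 𝒜₁ σ) :=
    fun σ => Commute.one_left _
  have hopgood : ∀ (ℓ : ℕ) (hℓ : ℓ.Prime) (hℓM : ¬ ℓ ∣ M₁), ℓ ∉ bad →
      (((iota M₁ (↑bad : Set ℕ)).comp r₁).comp (phiS (M₁ * p) bad)) (MvPolynomial.X ℓ)
        = latT M₁ hℓ hℓM := by
    intro ℓ hℓ hℓM hb
    have hb' : ℓ ∉ (↑bad : Set ℕ) := fun h => hb (Finset.mem_coe.1 h)
    rw [RingHom.comp_apply, phiS_X (M₁ * p) bad hℓ (hbad ℓ hℓ hb) hb', RingHom.comp_apply,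
      hr₁ ℓ hℓ (hbad ℓ hℓ hb) hb' hℓM]
    exact iota_T M₁ _ hℓ hℓM hb'
  have hopjunk : ∀ ℓ : ℕ, ¬ (ℓ.Prime ∧ ℓ ∉ bad) →
      (((iota M₁ (↑bad : Set ℕ)).comp r₁).comp (phiS (M₁ * p) bad)) (MvPolynomial.X ℓ) = 0 := by
    intro ℓ h
    rw [RingHom.comp_apply, phiS_X_junk (M₁ * p) bad h, map_zero]
  exact ordLat_of_kappa hcheb hp hpbad (rawS hp 𝒜₁ hes₁ bad hbad 1 h1).toHSys rfl hpT
    (psiS H bad r) H.ρ
    (attachedS H hNM bad hS hbad r hr _ fun _ => rfl) hres P hP (TS 𝒜₁ p)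
    (fun σ => RT.TS_actS_commute 𝒜₁ p hp hpM₁ σ)
    (fun z hpz hTz hfix => hwfS hW (NeZero.ne M₁) hM₁ hp hp2 hpM₁ 𝒜₁ P hP z hpz hTz hfix)
    ((iota M₁ (↑bad : Set ℕ)).comp r₁) (latT M₁ hp hpM₁) (phiS (M₁ * p) bad) (H.π.comp r)
    (fun _ => rfl) (kappaS 𝒜₁ 1).toAddMonoidHom
    (fun x => by
      have := RT.kappaS_eq_zero_iff 𝒜₁ 1 x
      rw [pow_one] at this
      exact this)
    (fun D x => kappaS_op hp 𝒜₁ hes₁ bad hbad 1 h1 _ hopgood hopjunk 1 D x)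
    (fun x => (RT.kappaS_hecke 𝒜₁ p hp hpM₁ 1 x _ (coe_latT_apply M₁ hp hpM₁ x)).symm)
    x hx hTx

/-- **FAITH** for the concrete `HSys` at level `M₁ p`. -/
theorem faithS (hcheb : WeakChebotarev) (hW : WFStatement) [NeZero p] [Finite (ResidueField T)]
    (hp : p.Prime) (hp2 : p ≠ 2) (hp𝒪 : (p : 𝒪) ∈ maximalIdeal 𝒪)
    (H : CuspForm.HeckeGaloisRepDatum N (↑S : Set ℕ) 𝒪 θ T)
    (hres : (GaloisRepAdic.ofResidualGaloisRep H.ρ.residual).IsOrdinaryAt p)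
    {M₁ : ℕ} [NeZero M₁] (hM₁ : AdmLevel M₁) (hpM₁ : ¬ p ∣ M₁) (hNM : N ∣ M₁ * p)
    (bad : Finset ℕ) (hS : S ⊆ bad) (hpbad : p ∈ bad)
    (hbad : ∀ ℓ : ℕ, ℓ.Prime → ℓ ∉ bad → ¬ ℓ ∣ M₁ * p)
    (hbad' : ∀ ℓ : ℕ, ℓ.Prime → ℓ ∉ bad → ¬ ℓ ∣ M₁ * p * p)
    (r : CuspForm.heckeAlgebra (M₁ * p) 2 (↑bad : Set ℕ) →+* CuspForm.heckeAlgebra N 2 (↑S : Set ℕ))
    (hr : ∀ (ℓ : ℕ) (hℓ : ℓ.Prime) (hℓM : ¬ ℓ ∣ M₁ * p) (hℓS' : ℓ ∉ (↑bad : Set ℕ))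
      (hℓN : ¬ ℓ ∣ N) (hℓS : ℓ ∉ (↑S : Set ℕ)),
      r (CuspForm.heckeAlgebra.T hℓ hℓM hℓS') = CuspForm.heckeAlgebra.T hℓ hℓN hℓS)
    (𝒜 : AnFamily (M₁ * p) p) (hes : RT.ESElem 𝒜) (hAU : AnU 𝒜 p hp (Dvd.intro_left M₁ rfl))
    (𝒜₁ : AnFamily M₁ p) (hes₁ : RT.ESElem 𝒜₁)
    (P : ValuationSubring Qb) (hP : P.LiesOverPrime p) :
    Faith (rawS hp 𝒜 hes bad hbad' (US hAU) (US_actS hAU)).toHSys (psiS H bad r) := by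
  have hpT : (p : T) ∈ maximalIdeal T := natCast_mem_maximalIdeal_T hp𝒪
  have hbadSet : badSet (M₁ * p) ⊆ (↑bad : Set ℕ) := by
    intro q hq
    by_contra hcon
    exact hbad q hq.1 (fun h => hcon (Finset.mem_coe.2 h)) hq.2
  obtain ⟨r₁, hr₁⟩ := Adic.levelRes M₁ (M₁ * p) (Dvd.intro p rfl) (↑bad : Set ℕ) (↑bad : Set ℕ)
    (le_refl _) hbadSet
  have hr₁' : ∀ (ℓ : ℕ) (hℓ : ℓ.Prime) (hℓM : ¬ ℓ ∣ M₁ * p) (hℓS' : ℓ ∉ (↑bad : Set ℕ))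
      (hℓM₁ : ¬ ℓ ∣ M₁),
      r₁ (CuspForm.heckeAlgebra.T hℓ hℓM hℓS') = CuspForm.heckeAlgebra.T hℓ hℓM₁ hℓS' :=
    fun ℓ hℓ hℓM hℓS' hℓM₁ => hr₁ ℓ hℓ hℓM hℓS' hℓM₁ hℓS'
  have hord := ordLatS hcheb hW hp hp2 hp𝒪 H hres hM₁ hpM₁ hNM bad hS hpbad hbad r hr r₁ hr₁'
    𝒜₁ hes₁ P hP
  have hopgood : ∀ (ℓ : ℕ) (hℓ : ℓ.Prime) (hℓM : ¬ ℓ ∣ M₁ * p), ℓ ∉ bad →
      ((iota (M₁ * p) (↑bad : Set ℕ)).comp (phiS (M₁ * p) bad)) (MvPolynomial.X ℓ)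
        = latT (M₁ * p) hℓ hℓM := by
    intro ℓ hℓ hℓM hb
    have hb' : ℓ ∉ (↑bad : Set ℕ) := fun h => hb (Finset.mem_coe.1 h)
    rw [RingHom.comp_apply, phiS_X (M₁ * p) bad hℓ hℓM hb']
    exact iota_T (M₁ * p) _ hℓ hℓM hb'
  have hopjunk : ∀ ℓ : ℕ, ¬ (ℓ.Prime ∧ ℓ ∉ bad) →
      ((iota (M₁ * p) (↑bad : Set ℕ)).comp (phiS (M₁ * p) bad)) (MvPolynomial.X ℓ) = 0 := by
    intro ℓ h
    rw [RingHom.comp_apply, phiS_X_junk (M₁ * p) bad h, map_zero]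
  exact faith_of_kappa (rawS hp 𝒜 hes bad hbad' (US hAU) (US_actS hAU)).toHSys (psiS H bad r) hp hpT
    (iota (M₁ * p) (↑bad : Set ℕ)) (latU (M₁ * p) hp (Dvd.intro_left M₁ rfl))
    (fun t => faith_commute_latU (M₁ * p) _ t hp _) (phiS (M₁ * p) bad) (H.π.comp r)
    (fun _ => rfl) (faithConc_fg _ (iota_injective _ _) _)
    (fun k => (kappaS 𝒜 k).toAddMonoidHom)
    (fun k x => RT.kappaS_eq_zero_iff 𝒜 k x)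
    (fun k D x => kappaS_op hp 𝒜 hes bad hbad' (US hAU) (US_actS hAU) _ hopgood hopjunk k D x)
    (fun k x => (kappaS_latU hAU k x).symm)
    (fun n => faith hcheb hp hp2 hp𝒪 H hpM₁ (↑bad : Set ℕ) hbadSet (Finset.finite_toSet bad) r hr
      r₁ hr₁' hord n)

end main

end Fermat.Agent.ORD.P7.FC
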