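import Fermat.Agent.ORD.P7.LevelM
import Fermat.Agent.GAL.HK.Iota

/-!
# ORD / P7 / HeckeMap : the polynomial ring `HH = ℤ[X_ℓ]` maps onto the Hecke algebras; lattice operators; the two lattice contracts.

* `eH M B : HH →+* heckeAlgebra M 2 B`, `X_ℓ ↦ T_ℓ` (`ℓ` prime, `ℓ ∤ M`, `ℓ ∉ B`), `X_ℓ ↦ 0` otherwise.
* `opL M B : HH →+* End (Lat M)`.
* `OrdLatH`  : `T_p` is injective on `(Lat M₁ / p)[𝔪]`           (proved in `ORD/P7/OrdLat.lean` from (WF))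
* `FaithLatH`: the lattice form of FAITH at level `M = M₁ p`        (contract of P6: `OrdLatH → FaithLatH`)
-/

set_option autoImplicit false

open ModularCurve AlgebraicCurve CongruenceSubgroup
open Fermat.Agent.GAL Fermat.Agent.GAL.HK Fermat.Agent.GR Fermat.Agent.GR.CB Fermat.Agent.TOR
open Fermat.Agent.ORD.P0 IsLocalRing
open scoped MatrixGroups

noncomputable section

namespace Fermat.Agent.ORD.P7

open Classical in
/-- `T_ℓ` or junk. -/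
def tauH (M : ℕ) [NeZero M] (B : Set ℕ) (ℓ : ℕ) : CuspForm.heckeAlgebra M 2 B :=
  if h : ℓ.Prime ∧ ¬ ℓ ∣ M ∧ ℓ ∉ B then CuspForm.heckeAlgebra.T h.1 h.2.1 h.2.2 else 0

/-- `HH → 𝕋(M)`. -/
def eH (M : ℕ) [NeZero M] (B : Set ℕ) : HH →+* CuspForm.heckeAlgebra M 2 B :=
  (MvPolynomial.aeval (tauH M B) : HH →ₐ[ℤ] CuspForm.heckeAlgebra M 2 B).toRingHom

theorem eH_X (M : ℕ) [NeZero M] (B : Set ℕ) (ℓ : ℕ) : eH M B (MvPolynomial.X ℓ) = tauH M B ℓ :=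
  MvPolynomial.aeval_X _ _

theorem eH_X_of_good (M : ℕ) [NeZero M] (B : Set ℕ) {ℓ : ℕ} (hℓ : ℓ.Prime) (hℓM : ¬ ℓ ∣ M)
    (hℓB : ℓ ∉ B) : eH M B (MvPolynomial.X ℓ) = CuspForm.heckeAlgebra.T hℓ hℓM hℓB := by
  rw [eH_X, tauH, dif_pos ⟨hℓ, hℓM, hℓB⟩]

/-- if `B` contains the primes dividing `M`, the Hecke algebra is generated by the `T_ℓ`: `Algebra.adjoin_induction` on `CuspForm.heckeGenerators`. -/
theorem eH_surjective (M : ℕ) [NeZero M] (B : Set ℕ) (hB : ∀ q : ℕ, q.Prime → q ∣ M → q ∈ B) :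
    Function.Surjective (eH M B) := by
  rintro ⟨x, hx⟩
  have hx' : x ∈ Algebra.adjoin ℤ (CuspForm.heckeGenerators M 2 B) := hx
  have key : ∀ (y : _) (hy : y ∈ Algebra.adjoin ℤ (CuspForm.heckeGenerators M 2 B)),
      ∃ D : HH, eH M B D = (⟨y, hy⟩ : CuspForm.heckeAlgebra M 2 B) := by
    intro y hy
    induction hy using Algebra.adjoin_induction with
    | mem y hy =>
      rcases hy with ⟨ℓ, hℓ, hℓM, hℓB, rfl⟩ | ⟨q, hqM, hq, hqB, rfl⟩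
      · exact ⟨MvPolynomial.X ℓ, by rw [eH_X_of_good M B hℓ hℓM hℓB]; rfl⟩
      · exact absurd (hB q hq hqM) hqB
    | algebraMap r =>
      exact ⟨algebraMap ℤ HH r, (MvPolynomial.aeval (tauH M B)).commutes r⟩
    | add y z hy hz ihy ihz =>
      obtain ⟨D, hD⟩ := ihy
      obtain ⟨D', hD'⟩ := ihz
      exact ⟨D + D', by rw [map_add, hD, hD']; rfl⟩
    | mul y z hy hz ihy ihz =>
      obtain ⟨D, hD⟩ := ihy
      obtain ⟨D', hD'⟩ := ihz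
      exact ⟨D * D', by rw [map_mul, hD, hD']; rfl⟩
  exact key x hx'

/-- two ring homomorphisms out of `HH` agreeing on the variables are equal (`MvPolynomial.ringHom_ext`, integers: `eq_intCast`). -/
theorem HH_hom_ext {R : Type*} [Semiring R] (f g : HH →+* R)
    (h : ∀ ℓ, f (MvPolynomial.X ℓ) = g (MvPolynomial.X ℓ)) : f = g :=
  MvPolynomial.ringHom_ext
    (fun r => RingHom.congr_fun (RingHom.ext_int (f.comp MvPolynomial.C) (g.comp MvPolynomial.C)) r)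
    h

/-- the action of `HH` on the lattice. -/
def opL (M : ℕ) [NeZero M] (B : Set ℕ) : HH →+* Module.End ℤ (Lat M) := (iota M B).comp (eH M B)

theorem opL_X_of_good (M : ℕ) [NeZero M] (B : Set ℕ) {ℓ : ℕ} (hℓ : ℓ.Prime) (hℓM : ¬ ℓ ∣ M)
    (hℓB : ℓ ∉ B) : opL M B (MvPolynomial.X ℓ) = latT M hℓ hℓM := by
  rw [opL, RingHom.comp_apply, eH_X_of_good M B hℓ hℓM hℓB, iota_T]

theorem opL_X_of_junk (M : ℕ) [NeZero M] (B : Set ℕ) {ℓ : ℕ} (h : ¬ (ℓ.Prime ∧ ¬ ℓ ∣ M ∧ ℓ ∉ B)) :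
    opL M B (MvPolynomial.X ℓ) = 0 := by
  rw [opL, RingHom.comp_apply, eH_X, tauH, dif_neg h, map_zero]

private theorem heckeMap_equiv {bad : Finset ℕ} (R : Raw bad) {L : Type} [AddCommGroup L]
    (opl : HH →+* Module.End ℤ L) (κ : L →+ R.W)
    (hX : ∀ (ℓ : ℕ) (x : L), κ (opl (MvPolynomial.X ℓ) x) = R.op (MvPolynomial.X ℓ) (κ x))
    (D : HH) (x : L) : κ (opl D x) = R.op D (κ x) := by
  induction D using MvPolynomial.induction_on generalizing x with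
  | C a =>
    rw [eq_intCast MvPolynomial.C a, map_intCast, map_intCast, Module.End.intCast_apply,
      Module.End.intCast_apply, map_zsmul]
  | add D D' ih ih' =>
    rw [map_add, map_add, LinearMap.add_apply, LinearMap.add_apply, map_add, ih, ih']
  | mul_X D ℓ ih =>
    rw [map_mul, map_mul, Module.End.mul_apply, Module.End.mul_apply, ih, hX]

/-- `κ` is equivariant for `HH`.  PROOF: `MvPolynomial.induction_on D` (constants: `map_intCast`/`eq_intCast`, `Module.End.intCast_apply`, `map_zsmul`); variables: `Raw.op_X`, `TfS`,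
`opL_X_of_good` + `RT.kappaS_hecke` + `coe_latT_apply`, resp. `opL_X_of_junk`. -/
theorem kappaS_opL {M p : ℕ} [NeZero M] (hp : p.Prime) (𝒜 : AnFamily M p) (hes : RT.ESElem 𝒜)
    (bad : Finset ℕ) (hbad : ∀ ℓ : ℕ, ℓ.Prime → ℓ ∉ bad → ¬ ℓ ∣ M * p) (U : Module.End ℤ (SS 𝒜))
    (hU : ∀ σ : GAL.GQ, Commute U (actS 𝒜 σ)) (m : ℕ) (D : HH) (x : Lat M) :
    kappaS 𝒜 m (opL M (↑bad : Set ℕ) D x) = (rawS hp 𝒜 hes bad hbad U hU).op D (kappaS 𝒜 m x) := by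
  have hX : ∀ (ℓ : ℕ) (x : Lat M), kappaS 𝒜 m (opL M (↑bad : Set ℕ) (MvPolynomial.X ℓ) x)
      = (rawS hp 𝒜 hes bad hbad U hU).op (MvPolynomial.X ℓ) (kappaS 𝒜 m x) := by
    intro ℓ x
    rw [Raw.op_X]
    show _ = TfS 𝒜 bad ℓ (kappaS 𝒜 m x)
    by_cases hℓ : ℓ.Prime ∧ ℓ ∉ bad
    · have hℓM : ¬ ℓ ∣ M := fun hd => hbad ℓ hℓ.1 hℓ.2 (Dvd.dvd.mul_right hd p)
      have hℓB : ℓ ∉ (↑bad : Set ℕ) := fun h => hℓ.2 (Finset.mem_coe.1 h)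
      rw [opL_X_of_good M _ hℓ.1 hℓM hℓB, TfS_of_good 𝒜 bad hℓ.1 hℓ.2]
      exact RT.kappaS_hecke 𝒜 ℓ hℓ.1 hℓM m x _ (coe_latT_apply M hℓ.1 hℓM x)
    · have hj : ¬ (ℓ.Prime ∧ ¬ ℓ ∣ M ∧ ℓ ∉ (↑bad : Set ℕ)) := fun h =>
        hℓ ⟨h.1, fun hb => h.2.2 (Finset.mem_coe.2 hb)⟩
      rw [opL_X_of_junk M _ hj, TfS, if_neg hℓ, LinearMap.zero_apply, LinearMap.zero_apply,
        map_zero]
  exact heckeMap_equiv (rawS hp 𝒜 hes bad hbad U hU) (opL M (↑bad : Set ℕ))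
    (kappaS 𝒜 m).toAddMonoidHom hX D x

/-- **(ORD-lat)** : `T_p` is injective on `(Lat M₁ / p)[𝔪]`. -/
def OrdLatH (M₁ : ℕ) [NeZero M₁] {p : ℕ} (hp : p.Prime) (hpM₁ : ¬ p ∣ M₁) (B : Set ℕ)
    {T : Type} [CommRing T] [IsLocalRing T] (ψ : HH →+* T) : Prop :=
  ∀ x : Lat M₁, (∀ D ∈ mOf ψ, ∃ y : Lat M₁, opL M₁ B D x = p • y) →
    (∃ y : Lat M₁, latT M₁ hp hpM₁ x = p • y) → ∃ y : Lat M₁, x = p • y

/-- **(FAITH-lat)** : the hypotheses `hs`, `hFS` of `P7.faith_of_lattice`. -/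
def FaithLatH (M : ℕ) [NeZero M] {p : ℕ} (hp : p.Prime) (hpM : p ∣ M) (B : Set ℕ)
    {T : Type} [CommRing T] [IsLocalRing T] (ψ : HH →+* T) : Prop :=
  ∃ s : HH, (∀ D ∈ mOf ψ, ∃ n : ℕ, ∀ x : Lat M, ∃ y : Lat M, opL M B (D ^ n * s) x = p • y) ∧
    ∀ n : ℕ, ∃ k : ℕ, ∀ (D : HH) (j : ℕ),
      (∀ x : Lat M, ∃ y : Lat M, opL M B D (((opL M B s * latU M hp hpM) ^ j) x) = (p ^ k) • y) →
        ψ D ∈ maximalIdeal T ^ n

end Fermat.Agent.ORD.P7
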