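import Mathlib
import Fermat.Agent.GAL.ModuleDefs
import Fermat.Agent.GR.GaussRed
import Fermat.Agent.GR.CB.Kum

/-!
# ORD / P7 / K1 : generators `≡ 1` (formal).

* `k1a` : after scaling `u` by a constant, `(τ u / u) ^ n ≡ 1` for all `τ` in inertia.
* `k1b` : a class of exponent `p` with a `p ^ m`-generator `≡ 1` has a `p`-generator `≡ 1`.
-/

set_option autoImplicit false

open ModularCurve AlgebraicCurve

noncomputable section

namespace Fermat.Agent.ORD.P7

open Fermat.Agent.GAL Fermat.Agent.GR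

/-- **(K1a)**.  PROOF: `f = u ^ n ∈ FL`, `GR.exists_hasRed_C_mul_of_mem_FL` gives `c₀ ≠ 0`, `z ≠ 0` with `c₀ f ≡ z`; take `c ^ n = c₀`
(`IsAlgClosed.exists_pow_nat_eq`); `GR.hasRed_inertia` gives `τ(c₀ f)/(c₀ f) ≡ 1`. -/
theorem k1a (M n : ℕ) (hn : n ≠ 0) (A : ValuationSubring Qb) (u : LaurentSeries Qb)
    (hu : IsKum Qb M n u) :
    ∃ c : Qb, c ≠ 0 ∧ ∀ τ ∈ A.inertiaSubgroupIn ℚ,
      HasRed A ((galS τ (HahnSeries.C c * u) / (HahnSeries.C c * u)) ^ n) 1 := by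
  obtain ⟨hu0, hf, -⟩ := hu
  obtain ⟨c₀, hc₀, z, hz, hred⟩ := exists_hasRed_C_mul_of_mem_FL A M hf (pow_ne_zero n hu0)
  obtain ⟨c, hc⟩ := IsAlgClosed.exists_pow_nat_eq c₀ (Nat.pos_of_ne_zero hn)
  refine ⟨c, fun h => hc₀ (by rw [← hc, h, zero_pow hn]), fun τ hτ => ?_⟩
  have h := hasRed_inertia hτ hred hz
  have e : (galS τ (HahnSeries.C c * u) / (HahnSeries.C c * u)) ^ n
      = galS τ (HahnSeries.C c₀ * u ^ n) / (HahnSeries.C c₀ * u ^ n) := by
    rw [div_pow, ← map_pow, mul_pow, ← map_pow, hc]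
  rw [e]
  exact h

/-- a constant of `A` reduces to its residue class. -/
theorem k1_hasRed_C {A : ValuationSubring Qb} (a : A) :
    HasRed A (HahnSeries.C (a : Qb)) (HahnSeries.C (IsLocalRing.residue A a)) := by
  have h := HasRed.of_int (A := A) (HahnSeries.C a)
  rwa [show coeffMap A.subtype (HahnSeries.C a) = HahnSeries.C (a : Qb) from coeffMap_single _ 0 a,
    show coeffMap (IsLocalRing.residue A) (HahnSeries.C a) = HahnSeries.C (IsLocalRing.residue A a)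
      from coeffMap_single _ 0 a] at h

/-- a constant one of whose powers has a nonzero reduction reduces to a nonzero constant. -/
theorem k1_const {A : ValuationSubring Qb} {c : Qb} {N : ℕ} (hN : N ≠ 0)
    {w : LaurentSeries (IsLocalRing.ResidueField A)} (hw : w ≠ 0)
    (h : HasRed A (HahnSeries.C c ^ N) w) :
    ∃ κ : IsLocalRing.ResidueField A, κ ≠ 0 ∧ HasRed A (HahnSeries.C c) (HahnSeries.C κ) := by
  rcases A.mem_or_inv_mem c with hc | hc
  · refine ⟨IsLocalRing.residue A ⟨c, hc⟩, ?_, k1_hasRed_C ⟨c, hc⟩⟩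
    intro h0
    have h1 := (k1_hasRed_C (⟨c, hc⟩ : A)).pow N
    rw [h0, map_zero, zero_pow hN] at h1
    exact hw (h.unique h1)
  · by_cases h0 : IsLocalRing.residue A ⟨c⁻¹, hc⟩ = 0
    · exfalso
      have h1 := (k1_hasRed_C (⟨c⁻¹, hc⟩ : A)).pow N
      rw [h0, map_zero, zero_pow hN] at h1
      have h2 := h.inv hw
      rw [← inv_pow, ← map_inv₀] at h2
      exact inv_ne_zero hw (h2.unique h1)
    · refine ⟨(IsLocalRing.residue A ⟨c⁻¹, hc⟩)⁻¹, inv_ne_zero h0, ?_⟩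
      have hne : (HahnSeries.C (IsLocalRing.residue A ⟨c⁻¹, hc⟩) :
          LaurentSeries (IsLocalRing.ResidueField A)) ≠ 0 := by
        intro h3
        exact h0 (by simpa using h3)
      have h1 := (k1_hasRed_C (⟨c⁻¹, hc⟩ : A)).inv hne
      rwa [← map_inv₀, ← map_inv₀, inv_inv] at h1

/-- `a ^ (p ^ n) = 1 ⇒ a = 1` in characteristic `p`. -/
theorem k1_eq_one_of_pow {k : Type*} [Field k] (p : ℕ) (hp : p.Prime) [CharP k p] {n : ℕ}
    {a : LaurentSeries k} (h : a ^ (p ^ n) = 1) : a = 1 := by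
  have : Fact p.Prime := ⟨hp⟩
  have : CharP (LaurentSeries k) p :=
    charP_of_injective_ringHom (f := (HahnSeries.C : k →+* LaurentSeries k))
      HahnSeries.C_injective p
  have h1 : (a - 1) ^ (p ^ n) = 0 := by rw [sub_pow_char_pow, h, one_pow, sub_self]
  exact sub_eq_zero.mp (eq_zero_of_pow_eq_zero h1)

/-- **(K1b)**.  PROOF: `g = u ^ p ∈ FL`, `g ≠ 0`; `c₀ g ≡ z ≠ 0`; `(c₀ g)^(p^(m-1)) ≡ z^(p^(m-1))` and `g^(p^(m-1)) = u^(p^m) ≡ 1`, so the constant
`c₀^(p^(m-1))` reduces to `z^(p^(m-1))` (uniqueness of reductions, `HasRed.unique`, `HasRed.mul/div`): `c₀` is a unit of `A` and `z^(p^(m-1))` is a nonzero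
constant; in characteristic `p` this forces `z` constant (`ORD/P2/SmallP.lean` has `a ^ p` constant `⟹ a` constant), so `g ≡ κ` constant with
`κ^(p^(m-1)) = 1`, hence `κ = 1`.  The divisibility of the orders: `p^m ∣ ord_P (g^(p^(m-1))) = p^(m-1) ord_P g`.  (`m = 0`: `u ∈ FL`, `u ≡ 1`.) -/
theorem k1b (M p m : ℕ) (hp : p.Prime) (A : ValuationSubring Qb) (hA : A.LiesOverPrime p)
    (u : LaurentSeries Qb) (hu : IsKum Qb M (p ^ m) u) (hred : HasRed A (u ^ p ^ m) 1)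
    (hup : u ^ p ∈ FL Qb M) : IsKum Qb M p u ∧ HasRed A (u ^ p) 1 := by
  obtain ⟨hu0, hf, hord⟩ := hu
  rcases Nat.eq_zero_or_pos m with rfl | hm
  · rw [pow_zero, pow_one] at hred
    have hfu : u ∈ FL Qb M := by simpa using hf
    refine ⟨⟨hu0, hup, fun P => ?_⟩, by simpa using hred.pow p⟩
    have e : (⟨u ^ p, hup⟩ : FL Qb M) = (⟨u, hfu⟩ : FL Qb M) ^ (p : ℤ) := by
      rw [zpow_natCast]
      exact Subtype.ext rfl
    rw [e, P.ord_zpow]
    exact dvd_mul_right _ _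
  · obtain ⟨k, rfl⟩ : ∃ k, m = k + 1 := ⟨m - 1, by omega⟩
    have hpow : u ^ p ^ (k + 1) = (u ^ p) ^ (p ^ k) := by rw [pow_succ', pow_mul]
    have hN : p ^ k ≠ 0 := pow_ne_zero _ hp.ne_zero
    refine ⟨⟨hu0, hup, fun P => ?_⟩, ?_⟩
    · have e : (⟨u ^ p ^ (k + 1), hf⟩ : FL Qb M) = (⟨u ^ p, hup⟩ : FL Qb M) ^ ((p ^ k : ℕ) : ℤ) := by
        rw [zpow_natCast]
        exact Subtype.ext hpow
      have h1 := hord P
      rw [e, P.ord_zpow, pow_succ, Nat.cast_mul] at h1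
      exact (mul_dvd_mul_iff_left (by exact_mod_cast hN)).1 h1
    · obtain ⟨c₀, hc₀, z, hz, hcz⟩ :=
        exists_hasRed_C_mul_of_mem_FL A M hup (pow_ne_zero p hu0)
      have h1 := hcz.pow (p ^ k)
      rw [mul_pow, ← hpow] at h1
      have h2 := h1.div hred one_ne_zero
      rw [mul_div_assoc, div_self (pow_ne_zero _ hu0), mul_one, div_one] at h2
      obtain ⟨κ, hκ, hcκ⟩ := k1_const hN (pow_ne_zero _ hz) h2
      have hCκ : (HahnSeries.C κ : LaurentSeries (IsLocalRing.ResidueField A)) ≠ 0 := by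
        intro h3
        exact hκ (by simpa using h3)
      have hC0 : (HahnSeries.C c₀ : LaurentSeries Qb) ≠ 0 := by
        intro h3
        exact hc₀ (by simpa using h3)
      have h3 := hcz.div hcκ hCκ
      rw [mul_div_assoc, mul_comm, div_mul_cancel₀ _ hC0] at h3
      have h4 := h3.pow (p ^ k)
      rw [← hpow] at h4
      have := charP_residueField hp hA
      have h5 : z / HahnSeries.C κ = 1 := k1_eq_one_of_pow p hp (h4.unique hred)
      rwa [h5] at h3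

end Fermat.Agent.ORD.P7
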