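import Mathlib
import Fermat.Agent.TOR.CoreX
import Fermat.Agent.TOR.SteinbergAsm
import Fermat.Agent.TOR.GoalBFree
import Fermat.Agent.GAL.HK.Lat

/-!
# ORD / P7 / US : the operator `U_q` (`q ∣ M`) on the Kummer classes `SS 𝒜`.

Models: `GR/CB/VV.lean` (`heckeU_mem_FLU`, `heckeU_mem_VV`), `GR/CB/Main.lean` (`TS`, `coe_TS`, field `T_act`), `GR/CB/Psi.lean` (`psi_hecke`),
`GR/CB/RedL.lean` (`redL_hecke`), `TOR/SteinbergAsm.lean` (`nmU_psiRep_mem`: how to use `AnU.chr`).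
-/

set_option autoImplicit false

open ModularCurve AlgebraicCurve CongruenceSubgroup
open Fermat.Agent.GAL Fermat.Agent.GAL.HK Fermat.Agent.GR Fermat.Agent.GR.CB Fermat.Agent.TOR
open scoped MatrixGroups

noncomputable section

namespace Fermat.Agent.ORD.P7

variable {M p q : ℕ} [NeZero q] {𝒜 : AnFamily M p} {hq : q.Prime} {hqM : q ∣ M}

/-- as `heckeU_mem_FLU` : `FLU M ≤ (𝒜.An 0).Van`, `AnU.mem`, and `chr_eq_one_iff` with the trivial group `HPar M (p ^ 0)`. -/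
theorem nmU_mem_FLU (hAU : AnU 𝒜 q hq hqM) {u : UU} (hu : u ∈ FLU M) : nmU q u ∈ FLU M := by
  have hu0 : u ∈ (𝒜.An 0).Van := (𝒜.An 0).FL_le u hu
  have h1 : nmU q u ∈ (𝒜.An 0).Van := hAU.mem 0 u hu0
  have hsub : Subsingleton (ZMod (p ^ 0)) := by
    rw [pow_zero]; infer_instance
  have hsub2 : Subsingleton (HPar M (p ^ 0)) := by
    refine ⟨fun a b => ?_⟩
    apply Subtype.ext
    ext γ
    exact Subsingleton.elim _ _
  have hsub3 : Subsingleton (Multiplicative (HPar M (p ^ 0))) := hsub2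
  exact ((𝒜.An 0).chr_eq_one_iff ⟨nmU q u, h1⟩).1 (Subsingleton.elim _ _)

/-- as `heckeU_mem_VV`, with `TOR.nmU_galU`. -/
theorem nmU_mem_VV (hAU : AnU 𝒜 q hq hqM) {u : UU} (hu : u ∈ VV 𝒜) : nmU q u ∈ VV 𝒜 := by
  induction hu using Subgroup.closure_induction with
  | mem x hx =>
    obtain ⟨τ, m, v, hv, rfl⟩ := hx
    rw [nmU_galU]
    exact Subgroup.subset_closure ⟨τ, m, nmU q v, hAU.mem m v hv, rfl⟩
  | one => rw [map_one]; exact one_mem _
  | mul x y _ _ hx hy => rw [map_mul]; exact mul_mem hx hy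
  | inv x _ hx => rw [map_inv]; exact inv_mem hx

theorem indA_nmU_mem_SS (hAU : AnU 𝒜 q hq hqM) : ∀ x ∈ SS 𝒜, indA M (nmU q) x ∈ SS 𝒜 := by
  intro x hx
  obtain ⟨u, hu, rfl⟩ := mem_SS.mp hx
  rw [indA_cls M _ (fun _ h => nmU_mem_FLU hAU h)]
  exact mem_SS.mpr ⟨_, nmU_mem_VV hAU hu, rfl⟩

/-- `U_q` on `SS 𝒜`. -/
def US (hAU : AnU 𝒜 q hq hqM) : Module.End ℤ (SS 𝒜) :=
  (indA M (nmU q)).restrict (indA_nmU_mem_SS hAU)

theorem coe_US (hAU : AnU 𝒜 q hq hqM) (x : SS 𝒜) :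
    ((US hAU x : SS 𝒜) : AA M) = indA M (nmU q) (x : AA M) := rfl

theorem coe_US_of_cls (hAU : AnU 𝒜 q hq hqM) (x : SS 𝒜) (u : UU) (hx : cls M u = (x : AA M)) :
    ((US hAU x : SS 𝒜) : AA M) = cls M (nmU q u) := by
  rw [coe_US, ← hx, indA_cls M _ (fun _ h => nmU_mem_FLU hAU h)]

/-- iterates. -/
theorem coe_US_pow_of_cls (hAU : AnU 𝒜 q hq hqM) (n : ℕ) (x : SS 𝒜) (u : UU)
    (hx : cls M u = (x : AA M)) :
    (((US hAU ^ n) x : SS 𝒜) : AA M) = cls M ((nmU q)^[n] u) := by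
  induction n generalizing x u with
  | zero => rw [pow_zero, Module.End.one_apply, Function.iterate_zero, id, hx]
  | succ n ih =>
    rw [pow_succ, Module.End.mul_apply, Function.iterate_succ_apply]
    exact ih (US hAU x) (nmU q u) (coe_US_of_cls hAU x u hx).symm

/-- `((nmU q)^[n] u : series) = (NmL Qb q)^[n] u`. -/
theorem coe_nmU_iterate (n : ℕ) (u : UU) :
    (((nmU q)^[n] u : UU) : LaurentSeries Qb) = (NmL Qb q)^[n] (u : LaurentSeries Qb) := by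
  induction n with
  | zero => rfl
  | succ n ih =>
    rw [Function.iterate_succ_apply', Function.iterate_succ_apply', ← ih]
    rfl

/-- `U_q` commutes with Galois (`TOR.nmU_galU`). -/
theorem US_actS (hAU : AnU 𝒜 q hq hqM) (σ : GAL.GQ) : Commute (US hAU) (actS 𝒜 σ) := by
  refine LinearMap.ext fun x => Subtype.ext ?_
  obtain ⟨u, -, hx⟩ := exists_cls_eq 𝒜 x
  have hx' : cls M (galU σ u) = ((actS 𝒜 σ x : SS 𝒜) : AA M) := by
    rw [coe_actS, ← hx, gA_cls]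
  rw [Module.End.mul_apply, Module.End.mul_apply, coe_US_of_cls hAU _ _ hx', coe_actS,
    coe_US_of_cls hAU x u hx, gA_cls, nmU_galU]

/-- `κ` is `U_q`-equivariant.  (`kappaS 𝒜 m x = psi 𝒜 m (redL M (p^m) x)`; `psi_eq_cls`; `AnU.chr`; `redL` commutes with `cohU`: `HeckeDatum.T_comp` as in
`TOR.nmU_psiRep_mem`.) -/
theorem kappaS_latU (hAU : AnU 𝒜 q hq hqM) (m : ℕ) (x : LL0 M) :
    kappaS 𝒜 m (latU M hq hqM x) = US hAU (kappaS 𝒜 m x) := by
  apply Subtype.ext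
  obtain ⟨u, hu⟩ := (𝒜.An m).chr_surjective (Multiplicative.ofAdd (redL M (p ^ m) x))
  have hx : cls M (u : UU) = ((kappaS 𝒜 m x : SS 𝒜) : AA M) := by
    rw [coe_kappaS, psi_eq_cls 𝒜 m _ u hu]
  rw [coe_US_of_cls hAU _ _ hx, coe_kappaS]
  refine psi_eq_cls 𝒜 m _ ⟨nmU q (u : UU), hAU.mem m u u.2⟩ ?_
  have hchru : chrFun (𝒜.An m) (u : UU) u.2 =
      (redL M (p ^ m) x : Additive (Gamma0 M) →+ ZMod (p ^ m)) := by
    rw [chrFun]
    have : (⟨(u : UU), u.2⟩ : (𝒜.An m).Van) = u := rfl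
    rw [this, hu]
    rfl
  have key : (Multiplicative.toAdd ((𝒜.An m).chr ⟨nmU q (u : UU), hAU.mem m u u.2⟩) :
      HPar M (p ^ m)) = redL M (p ^ m) (latU M hq hqM x) := by
    apply Subtype.ext
    have h2 : ((Multiplicative.toAdd ((𝒜.An m).chr ⟨nmU q (u : UU), hAU.mem m u u.2⟩) :
        HPar M (p ^ m)) : Additive (Gamma0 M) →+ ZMod (p ^ m)) =
        chrFun (𝒜.An m) (nmU q (u : UU)) (hAU.mem m u u.2) := rfl
    rw [h2, hAU.chr m u u.2, hchru]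
    have h3 : (redL M (p ^ m) x : Additive (Gamma0 M) →+ ZMod (p ^ m)) =
        (Int.castAddHom (ZMod (p ^ m))).comp (x : Additive (Gamma0 M) →+ ℤ) := rfl
    have h4 : (redL M (p ^ m) (latU M hq hqM x) : Additive (Gamma0 M) →+ ZMod (p ^ m)) =
        (Int.castAddHom (ZMod (p ^ m))).comp
          ((datumU M hq hqM).T ℤ (x : Additive (Gamma0 M) →+ ℤ)) := rfl
    rw [h3, h4]
    exact HeckeDatum.T_comp _ _ _
  rw [← key]
  rfl

end Fermat.Agent.ORD.P7
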