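import Fermat.Agent.ORD.Contracts
import Fermat.Agent.ORD.P7.Build
import Fermat.Agent.ORD.P7.K1
import Fermat.Agent.ORD.P7.US

/-!
# ORD / P7 / LevelM : the concrete `HSys` on the Kummer classes `SS 𝒜`, the subgroup `K1`, and the hypotheses `hK1`, `hcore` of `P0.ordAt_of_hsys`.
-/

set_option autoImplicit false

open ModularCurve AlgebraicCurve CongruenceSubgroup
open Fermat.Agent.GAL Fermat.Agent.GR Fermat.Agent.GR.CB Fermat.Agent.TOR
open scoped MatrixGroups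

noncomputable section

namespace Fermat.Agent.ORD.P7

section raw

variable {M p : ℕ}

open Classical in
/-- the Hecke operators outside `bad` (junk `0`). -/
def TfS (𝒜 : AnFamily M p) (bad : Finset ℕ) (ℓ : ℕ) : Module.End ℤ (SS 𝒜) :=
  if ℓ.Prime ∧ ℓ ∉ bad then TS 𝒜 ℓ else 0

theorem TfS_of_good (𝒜 : AnFamily M p) (bad : Finset ℕ) {ℓ : ℕ} (hℓ : ℓ.Prime) (hb : ℓ ∉ bad) :
    TfS 𝒜 bad ℓ = TS 𝒜 ℓ := if_pos ⟨hℓ, hb⟩

/-- the raw data on `SS 𝒜`, with an arbitrary operator `U` commuting with Galois. -/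
def rawS (hp : p.Prime) (𝒜 : AnFamily M p) (hes : RT.ESElem 𝒜) (bad : Finset ℕ)
    (hbad : ∀ ℓ : ℕ, ℓ.Prime → ℓ ∉ bad → ¬ ℓ ∣ M * p) (U : Module.End ℤ (SS 𝒜))
    (hU : ∀ σ : GAL.GQ, Commute U (actS 𝒜 σ)) : Raw bad where
  W := SS 𝒜
  act := actS 𝒜
  smooth := RT.actS_smooth 𝒜 hp
  Tf := TfS 𝒜 bad
  Tf_junk := fun ℓ h => if_neg h
  Tf_act := fun ℓ σ => by
    by_cases h : ℓ.Prime ∧ ℓ ∉ bad
    · rw [TfS_of_good 𝒜 bad h.1 h.2]
      exact RT.TS_actS_commute 𝒜 ℓ h.1 (fun hd => hbad ℓ h.1 h.2 (Dvd.dvd.mul_right hd p)) σ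
    · rw [TfS, if_neg h]
      exact Commute.zero_left _
  frob := fun ℓ hℓ hb A hA σ hσ => by
    rw [TfS_of_good 𝒜 bad hℓ hb]
    exact RT.actS_frob 𝒜 hes ℓ hℓ (hbad ℓ hℓ hb) A hA σ hσ
  U := U
  U_act := hU

end raw

/-! ### the subgroup `K1` -/

/-- the class `x` has a `p ^ m`-generator `≡ 1` at `A`. -/
def IsK1 (M p : ℕ) (A : ValuationSubring Qb) (x : AA M) : Prop :=
  ∃ (u : UU) (m : ℕ), cls M u = x ∧ IsKum Qb M (p ^ m) (u : LaurentSeries Qb) ∧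
    HasRed A ((u : LaurentSeries Qb) ^ p ^ m) 1

theorem IsK1.zero (M p : ℕ) (A : ValuationSubring Qb) : IsK1 M p A 0 := by
  refine ⟨1, 0, cls_one M, ?_, ?_⟩
  · rw [Units.val_one]
    exact isKum_of_mem_FL M _ (one_mem _) one_ne_zero
  · rw [Units.val_one, one_pow]
    exact HasRed.one

/-- raising the exponent of a generator `≡ 1`. -/
theorem LevelM_hasRed_pow_of_le {p : ℕ} {A : ValuationSubring Qb} {u : LaurentSeries Qb} {m N : ℕ}
    (hmN : m ≤ N) (h : HasRed A (u ^ p ^ m) 1) : HasRed A (u ^ p ^ N) 1 := by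
  obtain ⟨k, rfl⟩ := Nat.exists_eq_add_of_le hmN
  have := h.pow (p ^ k)
  rwa [one_pow, ← pow_mul, ← _root_.pow_add] at this

/-- `u`, `m` and `u'`, `m'` : take `u u'` and `max m m'` (`IsKum.of_dvd`, `IsKum.mul'` of `GR/CB/Kum.lean`; `HasRed.mul`, `HasRed.pow`). -/
theorem IsK1.add {M p : ℕ} {A : ValuationSubring Qb} {x y : AA M} (hx : IsK1 M p A x)
    (hy : IsK1 M p A y) : IsK1 M p A (x + y) := by
  obtain ⟨u, m, rfl, hk, hr⟩ := hx
  obtain ⟨u', m', rfl, hk', hr'⟩ := hy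
  refine ⟨u * u', max m m', cls_mul M u u', ?_, ?_⟩
  · rw [Units.val_mul]
    exact IsKum.mul' (IsKum.of_dvd (pow_dvd_pow p (le_max_left m m')) hk)
      (IsKum.of_dvd (pow_dvd_pow p (le_max_right m m')) hk')
  · rw [Units.val_mul, mul_pow]
    have := (LevelM_hasRed_pow_of_le (le_max_left m m') hr).mul
      (LevelM_hasRed_pow_of_le (le_max_right m m') hr')
    rwa [one_mul] at this

theorem IsK1.neg {M p : ℕ} {A : ValuationSubring Qb} {x : AA M} (hx : IsK1 M p A x) :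
    IsK1 M p A (-x) := by
  obtain ⟨u, m, rfl, hk, hr⟩ := hx
  refine ⟨u⁻¹, m, cls_inv M u, ?_, ?_⟩
  · rw [Units.val_inv_eq_inv_val]
    exact IsKum.inv' hk
  · rw [Units.val_inv_eq_inv_val, inv_pow]
    have := hr.inv one_ne_zero
    rwa [inv_one] at this

/-- the subgroup `K1` of `SS 𝒜`. -/
def K1S {M p : ℕ} (𝒜 : AnFamily M p) (A : ValuationSubring Qb) : AddSubgroup (SS 𝒜) where
  carrier := {x | IsK1 M p A (x : AA M)}
  add_mem' := fun {a b} ha hb => by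
    show IsK1 M p A ((a + b : SS 𝒜) : AA M)
    rw [Submodule.coe_add]
    exact IsK1.add ha hb
  zero_mem' := IsK1.zero M p A
  neg_mem' := fun {a} ha => by
    show IsK1 M p A ((-a : SS 𝒜) : AA M)
    rw [Submodule.coe_neg]
    exact IsK1.neg ha

/-- **hK1**.  `x = cls u`, `u ∈ VV 𝒜`, `IsKum (p ^ m) u` (`exists_isKum_of_mem_VV`); `k1a` gives `c`; `u' := C c * u` (a unit); the class of
`galU τ u' * u'⁻¹` is `act τ x - x` (constants are in `FLU M`), it is Kummer (`IsKum.galS'`, `IsKum.mul'`, `IsKum.inv'`, `isKum_of_mem_FL`). -/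
theorem hK1S {M p : ℕ} (hp : p.Prime) (𝒜 : AnFamily M p) (A : ValuationSubring Qb) (τ : GAL.GQ)
    (hτ : τ ∈ A.inertiaSubgroupIn ℚ) (x : SS 𝒜) : actS 𝒜 τ x - x ∈ K1S 𝒜 A := by
  obtain ⟨u, hu, hux⟩ := exists_cls_eq 𝒜 x
  obtain ⟨m, hk⟩ := exists_isKum_of_mem_VV 𝒜 hu
  obtain ⟨c, hc0, hc⟩ := k1a M (p ^ m) (pow_ne_zero m hp.ne_zero) A (u : LaurentSeries Qb) hk
  have hC0 : (HahnSeries.C c : LaurentSeries Qb) ≠ 0 := by
    rw [ne_eq, map_eq_zero]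
    exact hc0
  set γ : UU := Units.mk0 (HahnSeries.C c) hC0 with hγ
  have hγF : γ ∈ FLU M := C_mem_FL M c
  have hγk : IsKum Qb M (p ^ m) ((γ * u : UU) : LaurentSeries Qb) := by
    rw [Units.val_mul]
    exact IsKum.mul' (isKum_of_mem_FL M _ (C_mem_FL M c) hC0) hk
  have hcl : cls M (γ * u) = (x : AA M) := by
    rw [cls_mul, cls_eq_zero_iff.2 hγF, zero_add, hux]
  show IsK1 M p A ((actS 𝒜 τ x - x : SS 𝒜) : AA M)
  refine ⟨galU τ (γ * u) * (γ * u)⁻¹, m, ?_, ?_, ?_⟩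
  · rw [cls_mul, cls_inv, ← gA_cls, hcl, Submodule.coe_sub, coe_actS, sub_eq_add_neg]
  · rw [Units.val_mul, Units.val_inv_eq_inv_val, coe_galU]
    exact IsKum.mul' (IsKum.galS' τ hγk) (IsKum.inv' hγk)
  · rw [Units.val_mul, Units.val_inv_eq_inv_val, coe_galU, ← div_eq_mul_inv, Units.val_mul]
    exact hc τ hτ

end Fermat.Agent.ORD.P7
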